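import Fermat.Agent.CurveTorsion.Model
import Mathlib.Algebra.Polynomial.Taylor
import Mathlib.RingTheory.Ideal.Quotient.Operations

/-!
# Substitution of truncated series into bivariate polynomials
-/

set_option autoImplicit false

noncomputable section

open scoped Classical

open Polynomial
open scoped Polynomial.Bivariate

namespace Fermat.Agent.CurveTorsion

section General

variable {k E E' : Type*} [CommRing k] [CommRing E] [Algebra k E] [CommRing E'] [Algebra k E']

theorem algHom_evalB (φ : E →ₐ[k] E') (x θ : E) (g : k[X][Y]) :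
    φ (evalB x θ g) = evalB (φ x) (φ θ) g := by
  have h : (φ : E →+* E').comp (evalB (k := k) x θ) = evalB (k := k) (φ x) (φ θ) := by
    refine Polynomial.ringHom_ext (fun p => ?_) ?_
    · simp [evalB_C, ← aeval_algHom_apply]
    · simp [evalB_Y]
  exact RingHom.congr_fun h g

theorem evalB_eq_eval (x θ : E) (g : k[X][Y]) :
    evalB x θ g = (g.map (aeval x).toRingHom).eval θ := (eval_map _ _).symm

/-- Evaluations at congruent points are congruent. -/
theorem evalB_sub_mem {I : Ideal E} {x x' θ θ' : E} (hx : x - x' ∈ I) (hθ : θ - θ' ∈ I)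
    (g : k[X][Y]) : evalB x θ g - evalB x' θ' g ∈ I := by
  rw [← Ideal.Quotient.eq] at hx hθ ⊢
  have h1 := algHom_evalB (Ideal.Quotient.mkₐ k I) x θ g
  have h2 := algHom_evalB (Ideal.Quotient.mkₐ k I) x' θ' g
  simp only [Ideal.Quotient.mkₐ_eq_mk] at h1 h2
  rw [h1, h2, hx, hθ]

theorem evalB_sub_dvd {c x x' θ θ' : E} (hx : c ∣ x - x') (hθ : c ∣ θ - θ')
    (g : k[X][Y]) : c ∣ evalB x θ g - evalB x' θ' g := by
  simp only [← Ideal.mem_span_singleton] at hx hθ ⊢
  exact evalB_sub_mem hx hθ g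

theorem evalB_add_of_sq_zero (x θ d : E) (hd : d ^ 2 = 0) (g : k[X][Y]) :
    evalB x (θ + d) g = evalB x θ g + evalB x θ (derivative g) * d := by
  rw [evalB_eq_eval, evalB_eq_eval, evalB_eq_eval, ← derivative_map,
    eval_add_of_sq_eq_zero _ _ _ hd]

theorem evalB_add_sq (x θ d : E) (g : k[X][Y]) :
    ∃ c : E, evalB x (θ + d) g = evalB x θ g + evalB x θ (derivative g) * d + c * d ^ 2 := by
  obtain ⟨c, hc⟩ := (g.map (aeval x).toRingHom).binomExpansion θ d
  exact ⟨c, by rw [evalB_eq_eval, evalB_eq_eval, evalB_eq_eval, ← derivative_map, hc]⟩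

end General

section Ev

variable {R S : Type*} [CommRing R] [CommRing S]

/-- Substitution of `t + X` and a series `ζ`. -/
def ev (t : R) (ζ : R[X]) : R[X][Y] →+* R[X] := evalB (X + C t) ζ

theorem ev_C (t : R) (ζ : R[X]) (p : R[X]) : ev t ζ (C p) = p.comp (X + C t) := by
  rw [ev, evalB_C, comp_eq_aeval]

theorem ev_map (f : R →+* S) (t : R) (ζ : R[X]) (g : R[X][Y]) :
    (ev t ζ g).map f = ev (f t) (ζ.map f) (g.map (mapRingHom f)) := by
  have h : (mapRingHom f).comp (ev t ζ)
      = (ev (f t) (ζ.map f)).comp (mapRingHom (mapRingHom f)) := by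
    refine Polynomial.ringHom_ext (fun p => ?_) ?_
    · simp only [RingHom.comp_apply, coe_mapRingHom, Polynomial.map_C, ev_C, Polynomial.map_comp,
        Polynomial.map_add, Polynomial.map_X]
    · simp [ev, evalB_Y]
  exact RingHom.congr_fun h g

theorem coeff_zero_ev (t : R) (ζ : R[X]) (g : R[X][Y]) :
    (ev t ζ g).coeff 0 = evalB t (ζ.coeff 0) g := by
  have h := algHom_evalB (aeval (0 : R)) (X + C t) ζ g
  simpa [ev, coe_aeval_eq_eval, ← coeff_zero_eq_eval_zero] using h

theorem dvd_ev_sub {t : R} {ζ ζ' : R[X]} {N : ℕ} (h : X ^ N ∣ ζ - ζ') (g : R[X][Y]) :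
    X ^ N ∣ ev t ζ g - ev t ζ' g :=
  evalB_sub_dvd (by simp) h g

theorem dvd_ev_congr {t : R} {ζ ζ' : R[X]} {N j : ℕ} (hj : j ≤ N) (h : X ^ N ∣ ζ - ζ')
    (g : R[X][Y]) : X ^ j ∣ ev t ζ g ↔ X ^ j ∣ ev t ζ' g :=
  dvd_iff_dvd_of_dvd_sub ((pow_dvd_pow X hj).trans (dvd_ev_sub h g))

/-- The series with given coefficients. -/
def zpoly {N : ℕ} (z : Fin N → R) : R[X] := ∑ j : Fin N, C (z j) * X ^ (j : ℕ)

theorem coeff_zpoly {N : ℕ} (z : Fin N → R) (j : Fin N) : (zpoly z).coeff j = z j := by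
  simp only [zpoly, finsetSum_coeff, coeff_C_mul_X_pow, ← Fin.ext_iff]
  simp

theorem coeff_zpoly_of_le {N : ℕ} (z : Fin N → R) {j : ℕ} (hj : N ≤ j) :
    (zpoly z).coeff j = 0 := by
  simp only [zpoly, finsetSum_coeff, coeff_C_mul_X_pow]
  exact Finset.sum_eq_zero fun i _ => if_neg (by omega)

theorem map_zpoly (f : R →+* S) {N : ℕ} (z : Fin N → R) :
    (zpoly z).map f = zpoly fun j => f (z j) := by
  simp [zpoly, Polynomial.map_sum]

theorem zpoly_congr {N : ℕ} (ζ : R[X]) : X ^ N ∣ zpoly (fun j : Fin N => ζ.coeff j) - ζ := by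
  rw [X_pow_dvd_iff]
  intro d hd
  rw [coeff_sub, coeff_zpoly (fun j : Fin N => ζ.coeff j) ⟨d, hd⟩, sub_self]

theorem eq_zero_of_zpoly_dvd {N : ℕ} {z : Fin N → R} (h : X ^ N ∣ zpoly z) : z = 0 := by
  funext j
  rw [← coeff_zpoly z j, X_pow_dvd_iff.mp h j j.2, Pi.zero_apply]

end Ev

section Dual

variable {k D : Type*} [Field k] [CommRing D] [Algebra k D]

/-- Inclusion of `k[X]` in `D[X]`. -/
def incl : k[X] →+* D[X] := mapRingHom (algebraMap k D)

/-- First order deformation of a substitution. -/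
theorem ev_dual {ε : D} (hε : ε * ε = 0) (t τ : k) (ζ η : k[X]) (g : k[X][Y]) :
    ev (algebraMap k D t + ε * algebraMap k D τ)
        (incl ζ + C ε * incl η) (g.map (mapRingHom (algebraMap k D)))
      = incl (ev t ζ g) + C ε * incl (C τ * derivative (ev t ζ g)
          + (η - C τ * derivative ζ) * ev t ζ (derivative g)) := by
  set a : D := ε * algebraMap k D τ with ha
  have hCa : (C a : D[X]) = C ε * incl (C τ) := by simp [ha, incl]
  have ha2 : (C a : D[X]) ^ 2 = 0 := by rw [hCa, mul_pow, pow_two (C ε), ← C_mul, hε, C_0, zero_mul]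
  let φ : k[X] →ₐ[k] D[X] := aeval (X + C a)
  have hX : ∀ p : k[X], aeval (X : D[X]) p = incl p := fun p => by
    rw [incl, coe_mapRingHom, ← aeval_map_algebraMap D, aeval_X_left_apply]
  have hφ : ∀ p : k[X], φ p = incl p + incl (derivative p) * C a := fun p => by
    show aeval (X + C a) p = _
    rw [aeval_add_of_sq_eq_zero p X (C a) ha2]
    simp only [← hX]
  have hφt : φ (X + C t) = X + C (algebraMap k D t + a) := by
    simp [φ, Polynomial.algebraMap_eq, IsScalarTower.algebraMap_apply k D D[X]]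
    ring
  have hmap : ∀ (x θ : D[X]) (g : k[X][Y]),
      evalB x θ (g.map (mapRingHom (algebraMap k D))) = evalB (k := k) x θ g := by
    intro x θ g
    have h : (evalB x θ).comp (mapRingHom (mapRingHom (algebraMap k D)))
        = evalB (k := k) x θ := by
      refine Polynomial.ringHom_ext (fun p => ?_) ?_
      · simp [evalB_C, aeval_map_algebraMap]
      · simp [evalB_Y]
    exact RingHom.congr_fun h g
  set d : D[X] := incl (η - C τ * derivative ζ) * C ε with hd
  have hd2 : d ^ 2 = 0 := by rw [hd, mul_pow, pow_two (C ε), ← C_mul, hε, C_0, mul_zero]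
  have hθ : incl ζ + C ε * incl η = φ ζ + d := by
    rw [hφ, hd, hCa, map_sub, map_mul]
    ring
  have hεa : C ε * (C a : D[X]) = 0 := by
    rw [hCa, ← mul_assoc, ← C_mul, hε, C_0, zero_mul]
  rw [ev, hmap, hθ, ← hφt, evalB_add_of_sq_zero _ _ _ hd2, ← algHom_evalB, ← algHom_evalB, hφ,
    hφ, hd, hCa]
  have hεε : C ε * C ε = (0 : D[X]) := by rw [← C_mul, hε, C_0]
  simp only [map_add, map_mul, ev]
  linear_combination (incl (derivative (evalB (X + C t) ζ (derivative g))) * incl (C τ)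
    * incl (η - C τ * derivative ζ)) * hεε

end Dual

section Zeta

variable {k : Type*} [Field k]

/-- Hensel's lemma for series. -/
theorem exists_series (h : k[X][Y]) (t y : k) (h0 : evalB t y h = 0)
    (h1 : evalB t y (derivative h) ≠ 0) (N : ℕ) :
    ∃ ζ : k[X], ζ.coeff 0 = y ∧ X ^ N ∣ ev t ζ h := by
  induction N with
  | zero => exact ⟨C y, by simp, by simp⟩
  | succ N ih =>
    rcases Nat.eq_zero_or_pos N with rfl | hN
    · refine ⟨C y, by simp, ?_⟩
      rw [zero_add, pow_one, X_dvd_iff, coeff_zero_ev, coeff_C_zero, h0]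
    obtain ⟨ζ, hy, hdvd⟩ := ih
    obtain ⟨r, hr⟩ := hdvd
    set D := evalB t y (derivative h)
    set z : k := -r.coeff 0 / D
    refine ⟨ζ + C z * X ^ N, by simp [hy, coeff_X_pow, hN.ne], ?_⟩
    obtain ⟨c, hc⟩ := evalB_add_sq (X + C t) ζ (C z * X ^ N) h
    rw [ev, hc, ← ev, hr]
    have h2 : X ∣ r + C z * ev t ζ (derivative h) := by
      rw [X_dvd_iff, coeff_add, coeff_C_mul, coeff_zero_ev, hy]
      show r.coeff 0 + -r.coeff 0 / D * D = 0
      rw [div_mul_cancel₀ _ h1, add_neg_cancel]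
    have e1 : X ^ N * r + ev t ζ (derivative h) * (C z * X ^ N) + c * (C z * X ^ N) ^ 2
        = X ^ N * (r + C z * ev t ζ (derivative h)) + X ^ (N + 1) * (c * C z ^ 2 * X ^ (N - 1)) := by
      have e2 : (X : k[X]) ^ (N + 1) * X ^ (N - 1) = X ^ N * X ^ N := by
        rw [← pow_add, ← pow_add]; congr 1; omega
      linear_combination (-(c * C z ^ 2)) * e2
    rw [e1, pow_succ]
    exact dvd_add (mul_dvd_mul_left _ h2) (Dvd.intro _ rfl)

end Zeta

end Fermat.Agent.CurveTorsion
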