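import Fermat.Agent.CurveTorsion.EffDiv

/-!
# Classes of degree zero fixed by Frobenius and effective divisors in a class
-/

set_option autoImplicit false

noncomputable section

open scoped Classical

open AlgebraicCurve

namespace Fermat.Agent.CurveTorsion

open FF

set_option linter.unusedSectionVars false
set_option synthInstance.maxHeartbeats 200000

variable {K F : Type*} [Field K] [Field F] [Algebra K F] [IsAlgClosed K] [IsFunctionField K F]

theorem degree_sub_smul_single (P : Place K F) (D : Divisor K F) :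
    Divisor.degree (D - Divisor.degree D • Finsupp.single P 1) = 0 := by
  simp [deg_eq_one]

/-- The class of `D - deg D · P₀`. -/
def cls (P₀ : Place K F) : Divisor K F →+ Pic0 K F where
  toFun D := Pic0.mk ⟨D - Divisor.degree D • Finsupp.single P₀ 1,
    Divisor.mem_degZero.mpr (degree_sub_smul_single P₀ D)⟩
  map_zero' := by
    rw [← Pic0.mk_zero]
    congr 1
    exact Subtype.ext (by simp)
  map_add' D E := by
    rw [← Pic0.mk_add]
    congr 1
    exact Subtype.ext (by simp [add_smul]; abel)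

theorem cls_apply (P₀ : Place K F) (D : Divisor K F) :
    cls P₀ D = Pic0.mk ⟨D - Divisor.degree D • Finsupp.single P₀ 1,
      Divisor.mem_degZero.mpr (degree_sub_smul_single P₀ D)⟩ := rfl

theorem cls_surjective (P₀ : Place K F) (c : Pic0 K F) :
    ∃ D, Divisor.degree D = 0 ∧ cls P₀ D = c := by
  obtain ⟨⟨D, hD⟩, rfl⟩ := Pic0.mk_surjective c
  refine ⟨D, Divisor.mem_degZero.mp hD, ?_⟩
  rw [cls_apply]
  congr 1
  exact Subtype.ext (by simp [Divisor.mem_degZero.mp hD])

theorem cls_single (P₀ : Place K F) (n : ℤ) : cls P₀ (Finsupp.single P₀ n) = 0 := by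
  rw [cls_apply, ← Pic0.mk_zero]
  congr 1
  exact Subtype.ext (by simp [deg_eq_one])

theorem cls_eq_zero_iff (P₀ : Place K F) {D : Divisor K F} (hD : Divisor.degree D = 0) :
    cls P₀ D = 0 ↔ ∃ f : F, f ≠ 0 ∧ D = FF.div K f := by
  rw [cls_apply, Pic0.mk, QuotientAddGroup.eq_zero_iff, AddSubgroup.mem_addSubgroupOf]
  simp only [hD, zero_smul, sub_zero, Divisor.mem_principal, Divisor.IsPrincipal]
  exact ⟨fun ⟨f, hf, h⟩ => ⟨f, hf, Finsupp.ext fun v => by rw [h v, div_apply]⟩,
    fun ⟨f, hf, h⟩ => ⟨f, hf, fun v => by rw [h, div_apply]⟩⟩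

theorem cls_div (P₀ : Place K F) {f : F} (hf : f ≠ 0) : cls P₀ (FF.div K f) = 0 :=
  (cls_eq_zero_iff P₀ (degree_div f)).mpr ⟨f, hf, rfl⟩

theorem exists_eq_add_div {P₀ : Place K F} {D E : Divisor K F}
    (hd : Divisor.degree D = Divisor.degree E) (h : cls P₀ D = cls P₀ E) :
    ∃ f : F, f ≠ 0 ∧ E = D + FF.div K f := by
  have h1 : Divisor.degree (E - D) = 0 := by rw [map_sub, hd, sub_self]
  have h2 : cls P₀ (E - D) = 0 := by rw [map_sub, h, sub_self]
  obtain ⟨f, hf, hfe⟩ := (cls_eq_zero_iff P₀ h1).mp h2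
  exact ⟨f, hf, by rw [← hfe]; abel⟩

theorem ell_congr {P₀ : Place K F} {D E : Divisor K F}
    (hd : Divisor.degree D = Divisor.degree E) (h : cls P₀ D = cls P₀ E) : ell K D = ell K E := by
  obtain ⟨f, hf, rfl⟩ := exists_eq_add_div hd h
  rw [ell_add_div hf]

/-- A divisor of degree `n` in a class. -/
def repDiv (P₀ : Place K F) (c : Pic0 K F) (n : ℤ) : Divisor K F :=
  (cls_surjective P₀ c).choose + Finsupp.single P₀ n

theorem degree_repDiv (P₀ : Place K F) (c : Pic0 K F) (n : ℤ) :
    Divisor.degree (repDiv P₀ c n) = n := by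
  rw [repDiv, map_add, (cls_surjective P₀ c).choose_spec.1, Divisor.degree_single, deg_eq_one]
  simp

theorem cls_repDiv (P₀ : Place K F) (c : Pic0 K F) (n : ℤ) : cls P₀ (repDiv P₀ c n) = c := by
  rw [repDiv, map_add, (cls_surjective P₀ c).choose_spec.2, cls_single, add_zero]

/-- The dimension of the space of a class in degree `n`. -/
def ellN (P₀ : Place K F) (c : Pic0 K F) (n : ℤ) : ℕ :=
  Module.finrank K (riemannRochSpace (repDiv P₀ c n))

theorem ellN_eq (P₀ : Place K F) (D : Divisor K F) :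
    (ellN P₀ (cls P₀ D) (Divisor.degree D) : ℤ) = ell K D :=
  ell_congr (P₀ := P₀) (degree_repDiv _ _ _) (cls_repDiv _ _ _)

theorem ellN_eq' {P₀ : Place K F} {D : Divisor K F} {c : Pic0 K F} {n : ℤ}
    (hd : Divisor.degree D = n) (hc : cls P₀ D = c) : (ellN P₀ c n : ℤ) = ell K D := by
  subst hd hc
  exact ellN_eq P₀ D

theorem ellN_of_neg (P₀ : Place K F) (c : Pic0 K F) {n : ℤ} (hn : n < 0) : ellN P₀ c n = 0 := by
  have h1 : (ellN P₀ c n : ℤ) = 0 :=
    ell_eq_zero_of_degree_neg (K := K) (D := repDiv P₀ c n) (by rwa [degree_repDiv])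
  exact_mod_cast h1

theorem cls_eq_zero_of_ell_pos (P₀ : Place K F) {D : Divisor K F}
    (hd : Divisor.degree D = 0) (h : 0 < ell K D) : cls P₀ D = 0 := by
  obtain ⟨f, hf, hfD⟩ := exists_ne_zero_of_ell_pos h
  have h0 : (0 : Divisor K F) ≤ D + FF.div K f := hfD
  have h1 : D + FF.div K f = 0 := by
    refine Finsupp.ext fun v => ?_
    have h2 := le_degree h0 v
    rw [map_add, hd, degree_div, add_zero] at h2
    have h3 : (0 : ℤ) ≤ (D + FF.div K f) v := Finsupp.le_def.mp h0 v
    simp only [Finsupp.coe_zero, Pi.zero_apply]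
    omega
  rw [eq_neg_of_add_eq_zero_left h1, map_neg, cls_div P₀ hf, neg_zero]

variable {φ : SemilinearAut K F} {q : ℕ}

theorem smul_cls {P₀ : Place K F} (hP₀ : φ • P₀ = P₀) (D : Divisor K F) :
    φ • cls P₀ D = cls P₀ (φ • D) := by
  rw [cls_apply, cls_apply, SemilinearAut.pic0_smul_mk]
  congr 1
  refine Subtype.ext ?_
  rw [SemilinearAut.coe_degZeroSMulHom]
  simp only [smul_sub, SemilinearAut.degree_smul]
  rw [show φ • (Divisor.degree D • (Finsupp.single P₀ 1 : Divisor K F))
      = Divisor.degree D • (φ • (Finsupp.single P₀ 1 : Divisor K F)) from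
    map_zsmul (DistribSMul.toAddMonoidHom (Divisor K F) φ) _ _, SemilinearAut.smul_single, hP₀]

theorem ell_smul (g : SemilinearAut K F) (D : Divisor K F) : ell K (g • D) = ell K D := by
  have key : ∀ (g : SemilinearAut K F) (D : Divisor K F), ell K D ≤ ell K (g • D) := by
    intro g D
    let b := Module.finBasis K (riemannRochSpace D)
    have hmem : ∀ i, g • (b i : F) ∈ riemannRochSpace (g • D) := fun i => by
      have hb := (b i).2
      rw [mem_riemannRochSpace_iff] at hb ⊢
      intro P
      rcases hb (g⁻¹ • P) with h | h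
      · exact Or.inl (by rw [h, smul_zero])
      · refine Or.inr ?_
        have h1 := SemilinearAut.ord_smul g (g⁻¹ • P) (b i : F)
        rw [smul_inv_smul] at h1
        rw [h1, SemilinearAut.divisor_smul_apply]
        exact h
    have hli : LinearIndependent K (fun i => (⟨g • (b i : F), hmem i⟩ : riemannRochSpace (g • D))) := by
      rw [Fintype.linearIndependent_iff]
      intro a ha i
      have h1 : ∑ j, a j • (g • (b j : F)) = 0 := by
        have := congrArg Subtype.val ha
        simpa using this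
      have h2 : ∑ j, (SemilinearAut.baseAut g).symm (a j) • (b j : F) = 0 := by
        refine MulAction.injective g ?_
        simp only [Finset.smul_sum, smul_smul_elem, RingEquiv.apply_symm_apply, h1, smul_zero]
      have h3 : ∑ j, (SemilinearAut.baseAut g).symm (a j) • b j = 0 :=
        Subtype.ext (by simpa using h2)
      have := Fintype.linearIndependent_iff.mp b.linearIndependent _ h3 i
      simpa using this
    have := hli.fintype_card_le_finrank
    rw [Fintype.card_fin] at this
    simp only [ell]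
    exact_mod_cast this
  refine le_antisymm ?_ (key g D)
  simpa using key g⁻¹ (g • D)

/-- The group of classes fixed by `φ`. -/
def fixedSub (φ : SemilinearAut K F) : AddSubgroup (Pic0 K F) where
  carrier := {c | φ • c = c}
  zero_mem' := smul_zero φ
  add_mem' {a b} ha hb := by
    simp only [Set.mem_ofPred_eq] at *
    rw [smul_add, ha, hb]
  neg_mem' {a} ha := by
    simp only [Set.mem_ofPred_eq] at *
    rw [smul_neg, ha]

theorem mem_fixedSub {c : Pic0 K F} : c ∈ fixedSub φ ↔ φ • c = c := Iff.rfl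

theorem cls_mem_fixedSub {P₀ : Place K F} (hP₀ : φ • P₀ = P₀) {D : Divisor K F} (hD : Inv φ D) :
    cls P₀ D ∈ fixedSub φ := by
  rw [mem_fixedSub, smul_cls hP₀, hD]

theorem exists_inv_rep (h : IsFrob φ q) {P₀ : Place K F} (hP₀ : φ • P₀ = P₀) {c : Pic0 K F}
    (hc : c ∈ fixedSub φ) (n : ℤ) :
    ∃ D, Inv φ D ∧ Divisor.degree D = n ∧ cls P₀ D = c := by
  set R := repDiv P₀ c n
  have h1 : cls P₀ (φ • R) = cls P₀ R := by rw [← smul_cls hP₀, cls_repDiv, hc]
  obtain ⟨f, hf, hfe⟩ := exists_eq_add_div (SemilinearAut.degree_smul φ R) h1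
  obtain ⟨u, hu, hinv⟩ := h.exists_inv_equiv hf hfe
  exact ⟨R + FF.div K u, hinv, by rw [map_add, degree_repDiv, degree_div, add_zero],
    by rw [map_add, cls_repDiv, cls_div P₀ hu, add_zero]⟩

theorem card_units_fixed (h : IsFrob φ q) :
    Nat.card {a : K // a ^ q = a ∧ a ≠ 0} = q - 1 := by
  have h1 := h.card_fixed 1 one_pos
  rw [pow_one] at h1
  have hset : ({a : K | a ^ q = a ∧ a ≠ 0} : Set K) = {a : K | a ^ q = a} \ {0} := by
    ext a; simp
  change Set.ncard {a : K | a ^ q = a ∧ a ≠ 0} = _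
  rw [hset, Set.ncard_sdiff_singleton_of_mem (by simp [h.q_pos.ne'])]
  congr 1

/-- The effective invariant divisors in a class. -/
theorem card_eff_cls (h : IsFrob φ q) {P₀ : Place K F} (hP₀ : φ • P₀ = P₀) {c : Pic0 K F}
    (hc : c ∈ fixedSub φ) (n : ℕ) :
    (q - 1) * ((eff h n).filter fun D => cls P₀ D = c).card + 1 = q ^ ellN P₀ c n := by
  obtain ⟨R, hR, hRd, hRc⟩ := exists_inv_rep h hP₀ hc n
  set T := (eff h n).filter fun D => cls P₀ D = c
  have hz : ∀ D : T, ∃ z : F, z ≠ 0 ∧ φ • z = z ∧ (D : Divisor K F) = R + FF.div K z := by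
    rintro ⟨D, hD⟩
    obtain ⟨hD, hDc⟩ := Finset.mem_filter.mp hD
    obtain ⟨h0, hinv, hdeg⟩ := (mem_eff h).mp hD
    obtain ⟨f, hf, hfe⟩ := exists_eq_add_div (hRd.trans hdeg.symm) (hRc.trans hDc.symm)
    have hdi : Inv φ (FF.div K f) := by
      have := hinv.sub hR
      rwa [hfe, add_sub_cancel_left] at this
    obtain ⟨d, hd, hdf⟩ := h.exists_fixed_multiple hf hdi
    refine ⟨d • f, smul_ne_zero hd hf, hdf, ?_⟩
    refine hfe.trans ?_
    congr 1
    exact Finsupp.ext fun v => by rw [div_apply, div_apply, ord_smul' v hd]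
  choose z hz0 hzφ hzD using hz
  have hmem : ∀ D : T, z D ∈ riemannRochSpace R := fun D => by
    refine mem_riemannRochSpace'.mpr fun v => mem_ordGe_of_le v ?_
    have h0 := Finsupp.le_def.mp ((mem_eff h).mp (Finset.mem_filter.mp D.2).1).1 v
    rw [hzD D, Finsupp.add_apply, div_apply, Finsupp.coe_zero, Pi.zero_apply] at h0
    omega
  let V := {z : F // z ∈ riemannRochSpace R ∧ φ • z = z}
  let e : Option (T × {a : K // a ^ q = a ∧ a ≠ 0}) → V := fun o =>
    o.elim ⟨0, zero_mem _, smul_zero φ⟩ fun p =>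
      ⟨(p.2 : K) • z p.1, Submodule.smul_mem _ _ (hmem p.1), by
        rw [smul_smul_elem, h.base, p.2.2.1, hzφ]⟩
  have he : Function.Bijective e := by
    refine ⟨?_, ?_⟩
    · rintro (_ | ⟨D, a, ha, ha0⟩) (_ | ⟨D', a', ha', ha0'⟩) heq
      · rfl
      · exact absurd (congrArg Subtype.val heq).symm (smul_ne_zero ha0' (hz0 D'))
      · exact absurd (congrArg Subtype.val heq) (smul_ne_zero ha0 (hz0 D))
      · have heq' : a • z D = a' • z D' := congrArg Subtype.val heq
        have hD : D = D' := by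
          refine Subtype.ext ?_
          rw [hzD D, hzD D']
          congr 1
          refine Finsupp.ext fun v => ?_
          rw [div_apply, div_apply, ← ord_smul' v ha0 (f := z D), heq', ord_smul' v ha0']
        subst hD
        have : a = a' := smul_left_injective K (hz0 D) heq'
        subst this
        rfl
    · rintro ⟨x, hx, hxφ⟩
      rcases eq_or_ne x 0 with rfl | hx0
      · exact ⟨none, rfl⟩
      have hmemT : R + FF.div K x ∈ T := by
        refine Finset.mem_filter.mpr ⟨(mem_eff h).mpr ⟨?_, hR.add ?_, ?_⟩, ?_⟩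
        · refine Finsupp.le_def.mpr fun v => ?_
          have := le_ord_of_mem_ordGe v hx0 ((mem_riemannRochSpace'.mp hx) v)
          simp only [Finsupp.coe_zero, Pi.zero_apply, Finsupp.add_apply, div_apply]
          omega
        · rw [Inv, smul_div, hxφ]
        · rw [map_add, hRd, degree_div, add_zero]
        · rw [map_add, hRc, cls_div P₀ hx0, add_zero]
      set D : T := ⟨R + FF.div K x, hmemT⟩
      have h2 : FF.div K x = FF.div K (z D) := add_left_cancel (hzD D)
      obtain ⟨a, ha0, ha⟩ := eq_smul_of_div_eq hx0 (hz0 D) h2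
      refine ⟨some ⟨D, a, ?_, ha0⟩, Subtype.ext ha.symm⟩
      have h3 : φ • x = x := hxφ
      rw [ha, smul_smul_elem, h.base, hzφ] at h3
      exact smul_left_injective K (hz0 D) h3
  have hcard := Nat.card_eq_of_bijective e he
  have : Finite {a : K // a ^ q = a ∧ a ≠ 0} :=
    ((h.finite_fixed_field one_pos).subset fun a ha => by simpa using ha.1).to_subtype
  rw [show Nat.card V = q ^ Module.finrank K (riemannRochSpace R) from h.natCard_fixed hR,
    Finite.card_option, Nat.card_prod, card_units_fixed h, Nat.card_eq_fintype_card,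
    Fintype.card_coe] at hcard
  rw [mul_comm, hcard]
  congr 1
  have h4 : (ellN P₀ c n : ℤ) = (Module.finrank K (riemannRochSpace R) : ℤ) := ellN_eq' hRd hRc
  exact_mod_cast h4.symm

/-- Every fixed class comes from an effective invariant divisor of degree `g`. -/
theorem exists_eff_of_fixed (h : IsFrob φ q) {P₀ : Place K F} (hP₀ : φ • P₀ = P₀) {c : Pic0 K F}
    (hc : c ∈ fixedSub φ) : ∃ D ∈ eff h (genusFF K F), cls P₀ D = c := by
  by_contra! hno
  have h1 := card_eff_cls h hP₀ hc (genusFF K F)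
  rw [Finset.filter_false_of_mem (s := eff h (genusFF K F)) hno] at h1
  have h2 := riemann_inequality (K := K) (repDiv P₀ c (genusFF K F : ℤ))
  rw [degree_repDiv] at h2
  have h3 : 0 < ellN P₀ c (genusFF K F : ℤ) := by
    simp only [ellN]
    simp only [ell] at h2
    have := one_le_ell_zero (K := K) (F := F)
    simp only [ell] at this
    omega
  have h4 : q ^ 1 ≤ q ^ ellN P₀ c (genusFF K F : ℤ) := Nat.pow_le_pow_right h.q_pos h3
  have := h.two_le
  simp only [Finset.card_empty, mul_zero, zero_add] at h1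
  rw [pow_one] at h4
  omega

theorem finite_fixedSub (h : IsFrob φ q) {P₀ : Place K F} (hP₀ : φ • P₀ = P₀) :
    (fixedSub φ : Set (Pic0 K F)).Finite := by
  refine ((eff h (genusFF K F)).finite_toSet.image (cls P₀)).subset fun c hc => ?_
  obtain ⟨D, hD, hDc⟩ := exists_eff_of_fixed h hP₀ hc
  exact ⟨D, hD, hDc⟩

/-- The canonical class is fixed. -/
theorem exists_canonical_class {P₀ : Place K F} (hP₀ : φ • P₀ = P₀) :
    ∃ w ∈ fixedSub φ, ∀ (c : Pic0 K F) (n : ℤ),
      (ellN P₀ c n : ℤ) - ellN P₀ (w - c) (2 * genusFF K F - 2 - n) = n + 1 - genusFF K F := by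
  obtain ⟨W, hWd, hW⟩ := exists_canonical (K := K) (F := F)
  have hWell : ell K W = genusFF K F := by
    have := hW 0
    rw [sub_zero, ell_zero, map_zero] at this
    omega
  refine ⟨cls P₀ W, ?_, fun c n => ?_⟩
  · rw [mem_fixedSub, smul_cls hP₀]
    have hd : Divisor.degree (W - φ • W) = 0 := by rw [map_sub, SemilinearAut.degree_smul, sub_self]
    have h1 := hW (φ • W)
    rw [SemilinearAut.degree_smul, hWd, ell_smul, hWell] at h1
    have := cls_eq_zero_of_ell_pos P₀ hd (by omega)
    rw [map_sub, sub_eq_zero] at this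
    exact this.symm
  · have h1 := hW (repDiv P₀ c n)
    rw [degree_repDiv] at h1
    have h2 : (ellN P₀ (cls P₀ W - c) (2 * genusFF K F - 2 - n) : ℤ)
        = ell K (W - repDiv P₀ c n) :=
      ellN_eq' (by rw [map_sub, hWd, degree_repDiv]) (by rw [map_sub, cls_repDiv])
    rw [h2]
    exact h1

end Fermat.Agent.CurveTorsion
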