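import Fermat.Agent.CurveTorsion.ExistsData

/-!
# The curve data of a function field
-/

set_option autoImplicit false

noncomputable section

open scoped Classical

open Polynomial AlgebraicCurve IntermediateField
open scoped Polynomial.Bivariate

namespace Fermat.Agent.CurveTorsion

open FF

set_option linter.unusedSectionVars false

variable {K F : Type*} [Field K] [Field F] [Algebra K F] [IsFunctionField K F] [IsAlgClosed K]
  {n : ℕ} {x : F} {b : Fin n → F} {m : Fin n → ℕ}

theorem comb_inj_of_reduced (hx : Transcendental K x)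
    (hb : RedTorsion.IsReduced (K := K) x b m) :
    Function.Injective (comb x b : (Fin n → K[X]) →ₗ[K] F) := fun _ _ h =>
  hb.coeff_unique hx h

theorem exists_normalised (hx : Transcendental K x) (hn : n = Module.finrank K⟮x⟯ F) :
    ∃ (b : Fin n → F) (m : Fin n → ℕ) (i0 : Fin n), RedTorsion.IsReduced (K := K) x b m ∧
      b i0 = 1 ∧ m i0 = 0 ∧ ∀ i, i ≠ i0 → 0 < m i := by
  subst hn
  obtain ⟨b, m, hb⟩ := RedTorsion.exists_reduced (K := K) hx
  obtain ⟨P, hP, hPm⟩ := hb.repr 0 1 (RedTorsion.mem_polesSpace.mpr fun v => by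
    simpa using mem_ordGe_of_le v (le_of_eq (v.ord_one).symm))
  obtain ⟨i0, hi0⟩ : ∃ i, P i ≠ 0 := by
    by_contra! h
    simp [h] at hP
  have hm0 : m i0 = 0 := by have := hPm i0 hi0; omega
  have hconst : ∀ i, m i = 0 → ∃ a : K, b i = algebraMap K F a := fun i hi =>
    eq_algebraMap_of_ord_nonneg fun v => by
      rcases eq_or_ne (b i) 0 with h | h
      · simp [h]
      have h1 := RedTorsion.mem_polesSpace.mp (hb.mem i) v
      rw [hi] at h1
      exact le_ord_of_mem_ordGe v h (by simpa using h1)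
  obtain ⟨a, ha⟩ := hconst i0 hm0
  have ha0 : a ≠ 0 := fun h => hb.indep.ne_zero i0 (by simp [ha, h])
  refine ⟨fun i => a⁻¹ • b i, m, i0, ⟨?_, fun i => ?_, fun N y hy => ?_⟩, ?_, hm0, fun i hi => ?_⟩
  · have heq : (fun i => a⁻¹ • b i) = (fun i => (algebraMap K K⟮x⟯ a⁻¹) • b i) := by
      funext i; rw [algebraMap_smul]
    rw [heq]
    exact hb.indep.units_smul fun _ =>
      Units.mk0 (algebraMap K K⟮x⟯ a⁻¹) (by simpa using ha0)
  · exact Submodule.smul_mem _ _ (hb.mem i)
  · obtain ⟨P, hP, hdeg⟩ := hb.repr N y hy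
    refine ⟨fun i => C a * P i, ?_, fun i h => ?_⟩
    · rw [hP]
      refine Finset.sum_congr rfl fun i _ => ?_
      rw [map_mul, aeval_C, Algebra.smul_def, map_inv₀]
      field_simp [ha0]
    · rw [natDegree_C_mul ha0]
      exact hdeg i fun h0 => h (by simp [h0])
  · show a⁻¹ • b i0 = 1
    rw [ha, Algebra.smul_def, ← map_mul, inv_mul_cancel₀ ha0, map_one]
  · by_contra h0
    obtain ⟨c, hc⟩ := hconst i (by omega)
    have h1 := Fintype.linearIndependent_iff.mp hb.indep
      (Pi.single i (algebraMap K K⟮x⟯ a) - Pi.single i0 (algebraMap K K⟮x⟯ c)) (by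
        simp only [Pi.sub_apply, sub_smul, Finset.sum_sub_distrib]
        rw [Finset.sum_eq_single i (fun j _ hj => by simp [Pi.single_eq_of_ne hj]) (by simp),
          Finset.sum_eq_single i0 (fun j _ hj => by simp [Pi.single_eq_of_ne hj]) (by simp),
          Pi.single_eq_same, Pi.single_eq_same, algebraMap_smul, algebraMap_smul, ha, hc,
          Algebra.smul_def, Algebra.smul_def]
        ring) i
    rw [Pi.sub_apply, Pi.single_eq_same, Pi.single_eq_of_ne hi, sub_zero] at h1
    exact ha0 ((map_eq_zero _).mp h1)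

/-- A function regular outside the poles of `x` has bounded pole order. -/
theorem exists_mem_polesSpace {y : F} (hy : ∀ v : Place K F, 0 ≤ v.ord x → y ∈ ordGe v 0) :
    ∃ N : ℕ, y ∈ riemannRochSpace (N • poles K x) := by
  refine ⟨∑ v ∈ (finite_poles (K := K) x).toFinset, (-v.ord y).toNat,
    RedTorsion.mem_polesSpace.mpr fun v => ?_⟩
  by_cases hv : 0 ≤ v.ord x
  · simpa [poles_apply, max_eq_left (show -v.ord x ≤ 0 by omega)] using hy v hv
  refine mem_ordGe_of_le v ?_
  have h1 : (-v.ord y).toNat ≤ ∑ v ∈ (finite_poles (K := K) x).toFinset, (-v.ord y).toNat :=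
    Finset.single_le_sum (f := fun v : Place K F => (-v.ord y).toNat) (fun _ _ => Nat.zero_le _)
      (by simpa using hv)
  rw [poles_apply, max_eq_right (show (0 : ℤ) ≤ -v.ord x by omega)]
  set N := ∑ v ∈ (finite_poles (K := K) x).toFinset, (-v.ord y).toNat
  have h2 : (N : ℤ) ≤ N * -v.ord x := le_mul_of_one_le_right (by omega) (by omega)
  omega

theorem reg_of_reduced (hb : RedTorsion.IsReduced (K := K) x b m) (i : Fin n) (v : Place K F)
    (hv : 0 ≤ v.ord x) : b i ∈ ordGe v 0 := by
  have h1 := RedTorsion.mem_polesSpace.mp (hb.mem i) v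
  simpa [poles_apply, max_eq_left (show -v.ord x ≤ 0 by omega)] using h1

theorem reg_inf_of_reduced (hx : Transcendental K x) (hb : RedTorsion.IsReduced (K := K) x b m)
    (i : Fin n) (v : Place K F) (hv : v.ord x ≤ 0) : x⁻¹ ^ m i * b i ∈ ordGe v 0 := by
  have hx0 : x ≠ 0 := fun h => hx (by rw [h]; exact isAlgebraic_zero)
  have h1 := RedTorsion.mem_polesSpace.mp (hb.mem i) v
  rw [poles_apply, max_eq_right (show (0 : ℤ) ≤ -v.ord x by omega)] at h1
  have h2 : x⁻¹ ^ m i ∈ ordGe v (-((m i : ℤ) * v.ord x)) := mem_ordGe_of_le v (by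
    rw [FF.ord_pow, v.ord_inv]; linarith)
  have h3 := mul_mem_ordGe v h2 h1
  exact ordGe_anti v (by linarith) h3

theorem range_inf_of_reduced (hx : Transcendental K x)
    (hb : RedTorsion.IsReduced (K := K) x b m) {y : F}
    (hy : ∀ v : Place K F, 0 ≤ v.ord x⁻¹ → y ∈ ordGe v 0) :
    ∃ w, y = comb (k := K) x⁻¹ (fun i => x⁻¹ ^ m i * b i) w := by
  have hx0 : x ≠ 0 := fun h => hx (by rw [h]; exact isAlgebraic_zero)
  set e := ∑ v ∈ (finite_zeros (K := K) x).toFinset, (-v.ord y).toNat
  obtain ⟨P, hP, hdeg⟩ := hb.repr e (x ^ e * y) (RedTorsion.mem_polesSpace.mpr fun v => by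
    rcases eq_or_ne y 0 with rfl | hy0
    · simp
    refine mem_ordGe_of_le v ?_
    rw [v.ord_mul (pow_ne_zero _ hx0) hy0, FF.ord_pow, poles_apply]
    by_cases hv : 0 < v.ord x
    · have h1 : (-v.ord y).toNat ≤ e := Finset.single_le_sum
        (f := fun v : Place K F => (-v.ord y).toNat) (fun _ _ => Nat.zero_le _)
        (by simpa using hv)
      rw [max_eq_left (by omega)]
      have h2 : (e : ℤ) ≤ e * v.ord x := le_mul_of_one_le_right (by omega) (by omega)
      omega
    · have h1 := le_ord_of_mem_ordGe v hy0 (hy v (by rw [v.ord_inv]; omega))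
      rw [max_eq_right (by omega)]
      linarith)
  refine ⟨fun i => reflect (e - m i) (P i), ?_⟩
  have hxx : x * x⁻¹ = 1 := mul_inv_cancel₀ hx0
  have h1 : y = x⁻¹ ^ e * (x ^ e * y) := by
    rw [← mul_assoc, ← mul_pow, inv_mul_cancel₀ hx0, one_pow, one_mul]
  rw [h1, hP, comb_apply, Finset.mul_sum]
  refine Finset.sum_congr rfl fun i _ => ?_
  rcases eq_or_ne (P i) 0 with h0 | h0
  · simp [h0]
  have h2 := hdeg i h0
  rw [aeval_reflect hxx (show (P i).natDegree ≤ e - m i by omega)]
  conv_lhs => rw [show e = (e - m i) + m i by omega, pow_add]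
  ring

/-- Every separably generated function field comes from valid curve data. -/
theorem exists_curveData (hx : Transcendental K x) [Algebra.IsSeparable K⟮x⟯ F] :
    ∃ (D : CurveData K (Module.finrank K⟮x⟯ F)) (θ : F), D.IsValid ∧ Realizes D x θ := by
  obtain ⟨b, m, i0, hb, hb1, hm0, hmpos⟩ := exists_normalised (K := K) hx rfl
  obtain ⟨θ, h, H⟩ := exists_isPlane (L := K) hx
  obtain ⟨az, bz, Δ1, hΔ1, hbez⟩ := H.exists_bez
  choose Δd G hΔd hG using fun i => H.exists_den (b i)
  set Δ := Δ1 * ∏ i, Δd i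
  have hΔ : Δ ≠ 0 := mul_ne_zero hΔ1 (Finset.prod_ne_zero_iff.mpr fun i _ => hΔd i)
  have hΔx : aeval x Δ ≠ 0 := aeval_ne_zero hx hΔ
  let U : Fin _ → K[X][Y] := fun i =>
    if i = i0 then C Δ else C (Δ1 * ∏ j ∈ Finset.univ.erase i, Δd j) * G i
  have hU : ∀ i, evalB x θ (U i) = aeval x Δ * b i := by
    intro i
    simp only [U]
    split_ifs with hi
    · rw [evalB_C, hi, hb1, mul_one]
    · rw [map_mul, evalB_C, hG, ← mul_assoc, ← map_mul, mul_assoc,
        Finset.prod_erase_mul Finset.univ Δd (Finset.mem_univ i)]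
  have hprod : ∀ a c, ∃ P : Fin _ → K[X], b a * b c = ∑ i, aeval x (P i) * b i ∧
      ∀ i, P i ≠ 0 → (P i).natDegree + m i ≤ m a + m c := fun a c =>
    hb.repr _ _ (RedTorsion.mem_polesSpace.mpr fun v => by
      have h1 := mul_mem_ordGe v (RedTorsion.mem_polesSpace.mp (hb.mem a) v)
        (RedTorsion.mem_polesSpace.mp (hb.mem c) v)
      refine ordGe_anti v (le_of_eq ?_) h1
      push_cast
      ring)
  choose T hT hTdeg using hprod
  let D : CurveData K (Module.finrank K⟮x⟯ F) := ⟨m, i0, h, Δ, U, T⟩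
  have hx0 : x ≠ 0 := fun h => hx (by rw [h]; exact isAlgebraic_zero)
  have hch : Chart x b T i0 := ⟨hx, hb1, hT, comb_inj_of_reduced hx hb, reg_of_reduced hb,
    fun y hy => by
      obtain ⟨N, hN⟩ := exists_mem_polesSpace hy
      obtain ⟨P, hP, -⟩ := hb.repr N y hN
      exact ⟨P, hP⟩⟩
  have hch' : Chart x⁻¹ (fun i => x⁻¹ ^ m i * b i) (tableInf m T) i0 :=
    ⟨fun h => hx (IsAlgebraic.inv_iff.mp h), by simp [hm0, hb1],
      table_inf (mul_inv_cancel₀ hx0) hT hTdeg,
      comb_inv_injective (mul_inv_cancel₀ hx0) (comb_inj_of_reduced hx hb),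
      fun i v hv => reg_inf_of_reduced hx hb i v (by rw [v.ord_inv] at hv; omega),
      fun y hy => range_inf_of_reduced hx hb hy⟩
  have hker : ∀ g : K[X][Y], evalB x θ g = 0 → ∃ q, g = h * q := fun g hg =>
    (H.evalB_eq_zero_iff g).mp hg
  have hvalid : D.IsValid :=
    { monic := H.monic
      deg_h := H.deg
      m_i0 := hm0
      m_pos := hmpos
      U_i0 := if_pos rfl
      bez := ⟨az * C (∏ i, Δd i), bz * C (∏ i, Δd i), by
        show h * _ + derivative h * _ = C Δ
        rw [← mul_assoc, ← mul_assoc, ← add_mul, hbez, ← C_mul]⟩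
      mul := fun a c => by
        obtain ⟨q, hq⟩ := hker (U a * U c - C Δ * ∑ l, C (T a c l) * U l) (by
          rw [map_sub, map_mul, map_mul, map_sum, hU, hU, evalB_C]
          simp only [map_mul, evalB_C, hU]
          rw [Finset.mul_sum, show aeval x Δ * b a * (aeval x Δ * b c)
              = aeval x Δ * aeval x Δ * (b a * b c) by ring, hT, Finset.mul_sum,
            ← Finset.sum_sub_distrib]
          exact Finset.sum_eq_zero fun i _ => by ring)
        exact ⟨q, by linear_combination hq⟩
      span := fun j _ => by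
        obtain ⟨N, hN⟩ := exists_mem_polesSpace (K := K) (x := x) (y := θ ^ j) fun v hv => by
          have hxv : x ∈ v.toValuationSubring := (mem_iff v).mpr (Or.inr hv)
          have hθ : θ ∈ ordGe v 0 := RedTorsion.mem_ordGe_zero_of_monic_rel v (d := h.natDegree)
            (a := fun i => aeval x (h.coeff i))
            (fun i => (mem_ordGe_zero v).mpr (aeval_mem_valuationSubring v hxv _)) (by
              have h1 := H.root
              rw [evalB_eq_eval, eval_eq_sum_range, H.monic.natDegree_map,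
                Finset.sum_range_succ] at h1
              simp only [coeff_map, AlgHom.toRingHom_eq_coe, RingHom.coe_coe,
                H.monic.coeff_natDegree, map_one, one_mul] at h1
              rw [add_comm]
              exact h1)
          simpa using pow_mem_ordGe v hθ j
        obtain ⟨P, hP, -⟩ := hb.repr N _ hN
        obtain ⟨q, hq⟩ := hker (C Δ * Y ^ j - ∑ l, C (P l) * U l) (by
          rw [map_sub, map_mul, map_pow, evalB_Y, evalB_C, map_sum, hP]
          simp only [map_mul, evalB_C, hU]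
          rw [Finset.mul_sum, ← Finset.sum_sub_distrib]
          exact Finset.sum_eq_zero fun i _ => by ring)
        exact ⟨P, q, by linear_combination hq⟩
      degT := fun a c l => by
        rcases eq_or_ne (T a c l) 0 with h0 | h0
        · exact Or.inl h0
        · exact Or.inr (hTdeg a c l h0)
      certs := by
        refine ⟨Δ.roots.toList.length, fun j => Δ.roots.toList.get j, Δ.leadingCoeff,
          isUnit_iff_ne_zero.mpr (leadingCoeff_ne_zero.mpr hΔ), ?_,
          fun j => hch.exists_cert _, hch'.exists_cert 0⟩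
        show Δ = _
        conv_lhs => rw [(IsAlgClosed.splits Δ).eq_prod_roots]
        congr 1
        conv_lhs => rw [← Multiset.coe_toList Δ.roots, Multiset.map_coe, Multiset.prod_coe]
        rw [← List.prod_ofFn]
        congr 1
        conv_lhs => rw [← List.ofFn_get Δ.roots.toList, List.map_ofFn]
        rfl }
  refine ⟨D, θ, hvalid, ⟨hx, H.root, rfl, H.gen, ?_⟩⟩
  have hu : D.uElem x θ = b := funext fun i => by
    rw [CurveData.uElem, show D.U i = U i from rfl, hU, show D.Δ = Δ from rfl,
      mul_div_cancel_left₀ _ hΔx]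
  rw [hu]
  exact hb

end Fermat.Agent.CurveTorsion
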