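import Fermat.Agent.CurveTorsion.Frob

/-!
# Effective divisors invariant under Frobenius and the recursion of their counts
-/

set_option autoImplicit false

noncomputable section

open scoped Classical

open AlgebraicCurve

namespace Fermat.Agent.CurveTorsion

open FF

set_option linter.unusedSectionVars false
set_option synthInstance.maxHeartbeats 200000

variable {K F : Type*} [Field K] [Field F] [Algebra K F] [IsAlgClosed K] [IsFunctionField K F]
variable {φ : SemilinearAut K F} {q : ℕ}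

theorem degree_eq (D : Divisor K F) : Divisor.degree D = ∑ v ∈ D.support, D v := by
  rw [degree_eq_sum D D.support subset_rfl]
  simp [deg_eq_one]

/-- The places fixed by `φ ^ j`. -/
def fixedSet (h : IsFrob φ q) (j : ℕ) : Finset (Place K F) :=
  if hj : 0 < j then (h.finite_fixed_places hj).toFinset else ∅

theorem mem_fixedSet (h : IsFrob φ q) {j : ℕ} (hj : 0 < j) {P : Place K F} :
    P ∈ fixedSet h j ↔ φ ^ j • P = P := by
  rw [fixedSet, dif_pos hj, Set.Finite.mem_toFinset, Set.mem_ofPred_eq]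

/-- The period of a place. -/
def per (h : IsFrob φ q) (P : Place K F) : ℕ := Nat.find (h.orbit_place P)

theorem per_pos (h : IsFrob φ q) (P : Place K F) : 0 < per h P :=
  (Nat.find_spec (h.orbit_place P)).1

theorem pow_per (h : IsFrob φ q) (P : Place K F) : φ ^ per h P • P = P :=
  (Nat.find_spec (h.orbit_place P)).2

theorem per_le (h : IsFrob φ q) {P : Place K F} {j : ℕ} (hj : 0 < j) (hP : φ ^ j • P = P) :
    per h P ≤ j :=
  Nat.find_le ⟨hj, hP⟩

theorem pow_add_per (h : IsFrob φ q) (P : Place K F) (a b : ℕ) :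
    φ ^ (a + per h P * b) • P = φ ^ a • P := by
  rw [pow_add, mul_smul, pow_smul_fixed (pow_per h P) (dvd_mul_right _ _)]

theorem per_dvd (h : IsFrob φ q) {P : Place K F} {j : ℕ} (hP : φ ^ j • P = P) :
    per h P ∣ j := by
  have h1 : φ ^ (j % per h P) • P = P := by
    rw [← pow_add_per h P _ (j / per h P), Nat.mod_add_div]
    exact hP
  by_contra hd
  have h2 : 0 < j % per h P := Nat.pos_of_ne_zero fun h0 => hd (Nat.dvd_of_mod_eq_zero h0)
  have := per_le h h2 h1
  have := Nat.mod_lt j (per_pos h P)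
  omega

theorem pow_inj_of_lt (h : IsFrob φ q) {P : Place K F} {s t : ℕ} (hs : s < per h P)
    (ht : t < per h P) (hst : φ ^ s • P = φ ^ t • P) : s = t := by
  wlog hle : s ≤ t generalizing s t with H
  · exact (H ht hs hst.symm (le_of_not_ge hle)).symm
  obtain ⟨d, rfl⟩ := Nat.le.dest hle
  rw [pow_add, mul_smul] at hst
  have hd : φ ^ d • P = P := (MulAction.injective (φ ^ s) hst).symm
  have := Nat.eq_zero_of_dvd_of_lt (per_dvd h hd) (by omega)
  omega

/-- The divisor `∑_{t<j} φ^t P`. -/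
def orbDiv (φ : SemilinearAut K F) (P : Place K F) (j : ℕ) : Divisor K F :=
  ∑ t ∈ Finset.range j, Finsupp.single (φ ^ t • P) 1

theorem orbDiv_nonneg (P : Place K F) (j : ℕ) : 0 ≤ orbDiv φ P j :=
  Finset.sum_nonneg fun _ _ => Finsupp.single_nonneg.mpr zero_le_one

theorem degree_orbDiv (P : Place K F) (j : ℕ) : Divisor.degree (orbDiv φ P j) = j := by
  simp [orbDiv, deg_eq_one]

theorem inv_orbDiv {P : Place K F} {j : ℕ} (hP : φ ^ j • P = P) : Inv φ (orbDiv φ P j) := by
  have hs : ∀ t, Finsupp.single (φ ^ t • P) (1 : ℤ)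
      = φ ^ t • (Finsupp.single P 1 : Divisor K F) := fun t =>
    (SemilinearAut.smul_single _ _ _).symm
  simp only [Inv, orbDiv, hs]
  exact sum_orbit_fixed φ _ (by rw [← hs, hP])

theorem orbDiv_mul (h : IsFrob φ q) (P : Place K F) (i : ℕ) :
    orbDiv φ P (i * per h P) = i • orbDiv φ P (per h P) := by
  induction i with
  | zero => simp [orbDiv]
  | succ i ih =>
    rw [add_mul, one_mul, succ_nsmul, ← ih, orbDiv, orbDiv, orbDiv, Finset.sum_range_add]
    congr 1
    refine Finset.sum_congr rfl fun t _ => ?_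
    rw [add_comm (i * per h P), mul_comm i, pow_add_per]

theorem orbDiv_per_apply (h : IsFrob φ q) (P : Place K F) {t : ℕ} (ht : t < per h P) :
    orbDiv φ P (per h P) (φ ^ t • P) = 1 := by
  rw [orbDiv, Finsupp.finsetSum_apply, Finset.sum_eq_single t]
  · simp
  · intro s hs hst
    exact Finsupp.single_eq_of_ne fun heq =>
      hst (pow_inj_of_lt h (Finset.mem_range.mp hs) ht heq.symm)
  · simp [ht]

theorem orbDiv_per_apply_self (h : IsFrob φ q) (P : Place K F) :
    orbDiv φ P (per h P) P = 1 := by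
  have := orbDiv_per_apply h P (per_pos h P)
  rwa [pow_zero, one_smul] at this

theorem nsmul_orbDiv_le (h : IsFrob φ q) {D : Divisor K F} (h0 : 0 ≤ D) (hD : Inv φ D)
    {P : Place K F} {i : ℕ} (hi : (i : ℤ) ≤ D P) : i • orbDiv φ P (per h P) ≤ D := by
  refine Finsupp.le_def.mpr fun Q => ?_
  rw [Finsupp.smul_apply, nsmul_eq_mul]
  by_cases hQ : ∃ t < per h P, φ ^ t • P = Q
  · obtain ⟨t, ht, rfl⟩ := hQ
    rw [orbDiv_per_apply h P ht, mul_one, hD.apply_pow]
    exact hi
  · push Not at hQ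
    have hz : orbDiv φ P (per h P) Q = 0 := by
      rw [orbDiv, Finsupp.finsetSum_apply]
      exact Finset.sum_eq_zero fun t ht =>
        Finsupp.single_eq_of_ne fun heq => hQ t (Finset.mem_range.mp ht) heq.symm
    rw [hz, mul_zero]
    exact Finsupp.le_def.mp h0 Q

theorem Inv.add {D E : Divisor K F} (hD : Inv φ D) (hE : Inv φ E) : Inv φ (D + E) := by
  rw [Inv] at *
  rw [smul_add, hD, hE]

theorem Inv.sub {D E : Divisor K F} (hD : Inv φ D) (hE : Inv φ E) : Inv φ (D - E) := by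
  rw [Inv] at *
  rw [smul_sub, hD, hE]

theorem Inv.zero : Inv φ (0 : Divisor K F) := smul_zero φ

theorem le_degree {D : Divisor K F} (h0 : 0 ≤ D) (v : Place K F) : D v ≤ Divisor.degree D := by
  by_cases hv : v ∈ D.support
  · rw [degree_eq]
    exact Finset.single_le_sum (fun w _ => Finsupp.le_def.mp h0 w) hv
  · rw [Finsupp.notMem_support_iff.mp hv]
    exact degree_nonneg h0

theorem finite_eff (h : IsFrob φ q) (n : ℕ) :
    {D : Divisor K F | 0 ≤ D ∧ Inv φ D ∧ Divisor.degree D = n}.Finite := by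
  set S := fixedSet h n.factorial
  refine Set.Finite.of_finite_image (f := fun D v => if hv : v ∈ S then D v else 0) ?_ ?_
  · refine (Set.finite_range fun f : S → Fin (n + 1) => fun v : Place K F =>
      if hv : v ∈ S then ((f ⟨v, hv⟩ : ℕ) : ℤ) else 0).subset ?_
    rintro _ ⟨D, ⟨h0, -, hdeg⟩, rfl⟩
    refine ⟨fun v => ⟨(D v).toNat, ?_⟩, funext fun v => ?_⟩
    · have := le_degree h0 v.1
      omega
    · by_cases hv : v ∈ S
      · simp only [dif_pos hv]
        have : (0 : ℤ) ≤ D v := Finsupp.le_def.mp h0 v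
        omega
      · simp [dif_neg hv]
  · have key : ∀ D : Divisor K F, 0 ≤ D → Inv φ D → Divisor.degree D = n → ∀ v ∉ S, D v = 0 := by
      intro D h0 hinv hdeg v hv
      by_contra hne
      have h1 : (1 : ℤ) ≤ D v := by
        have : (0 : ℤ) ≤ D v := Finsupp.le_def.mp h0 v
        omega
      have h2 := degree_mono (nsmul_orbDiv_le h h0 hinv (i := 1) (by exact_mod_cast h1))
      rw [one_nsmul, degree_orbDiv, hdeg] at h2
      exact hv ((mem_fixedSet h n.factorial_pos).mpr
        (pow_smul_fixed (pow_per h v) (Nat.dvd_factorial (per_pos h v) (by exact_mod_cast h2))))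
    rintro D ⟨h0, hD, hdeg⟩ E ⟨h0', hE, hdeg'⟩ heq
    refine Finsupp.ext fun v => ?_
    by_cases hv : v ∈ S
    · have := congrFun heq v
      simpa [hv] using this
    · rw [key D h0 hD hdeg v hv, key E h0' hE hdeg' v hv]

/-- Effective invariant divisors of degree `n`. -/
def eff (h : IsFrob φ q) (n : ℕ) : Finset (Divisor K F) := (finite_eff h n).toFinset

theorem mem_eff (h : IsFrob φ q) {n : ℕ} {D : Divisor K F} :
    D ∈ eff h n ↔ 0 ≤ D ∧ Inv φ D ∧ Divisor.degree D = n := by
  rw [eff, Set.Finite.mem_toFinset]; rfl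

theorem eff_zero (h : IsFrob φ q) : eff h 0 = {(0 : Divisor K F)} := by
  ext D
  rw [mem_eff, Finset.mem_singleton]
  refine ⟨fun ⟨h0, _, hd⟩ => Finsupp.ext fun v => ?_, fun hD => ?_⟩
  · have := le_degree h0 v
    have : (0 : ℤ) ≤ D v := Finsupp.le_def.mp h0 v
    simp only [Finsupp.coe_zero, Pi.zero_apply]
    omega
  · subst hD
    exact ⟨le_rfl, Inv.zero, by simp⟩

/-- The weighted number of fixed places of `φ ^ j`. -/
def ptSum {R : Type*} [CommRing R] (h : IsFrob φ q) (w : Divisor K F → R) (j : ℕ) : R :=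
  ∑ P ∈ fixedSet h j, w (orbDiv φ P j)

/-- The recursion `n aₙ = ∑ Sⱼ aₙ₋ⱼ`. -/
theorem eff_recursion {R : Type*} [CommRing R] (h : IsFrob φ q) (w : Divisor K F → R)
    (hw : ∀ D E : Divisor K F, Inv φ D → Inv φ E → w (D + E) = w D * w E) (n : ℕ) :
    (n : R) * ∑ D ∈ eff h n, w D =
      ∑ j ∈ Finset.range n, ptSum h w (j + 1) * ∑ D ∈ eff h (n - (j + 1)), w D := by
  let A := (eff h n).sigma fun D => D.support.sigma fun P => Finset.range (D P).toNat
  let B := (Finset.range n).sigma fun j => fixedSet h (j + 1) ×ˢ eff h (n - (j + 1))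
  have hA : (n : R) * ∑ D ∈ eff h n, w D = ∑ x ∈ A, w x.1 := by
    simp only [A, Finset.sum_sigma, Finset.sum_const, nsmul_eq_mul]
    rw [Finset.mul_sum]
    refine Finset.sum_congr rfl fun D hD => ?_
    rw [Finset.card_sigma]
    simp only [Finset.card_range]
    congr 1
    obtain ⟨h0, -, hdeg⟩ := (mem_eff h).mp hD
    have h1 : ((∑ v ∈ D.support, (D v).toNat : ℕ) : ℤ) = n := by
      rw [← hdeg, degree_eq, Nat.cast_sum]
      exact Finset.sum_congr rfl fun v _ => Int.toNat_of_nonneg (Finsupp.le_def.mp h0 v)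
    exact congrArg (Nat.cast : ℕ → R) (by exact_mod_cast h1.symm)
  have hB : ∑ j ∈ Finset.range n, ptSum h w (j + 1) * ∑ D ∈ eff h (n - (j + 1)), w D =
      ∑ x ∈ B, w (x.2.2 + orbDiv φ x.2.1 (x.1 + 1)) := by
    simp only [B, Finset.sum_sigma, Finset.sum_product, ptSum, Finset.sum_mul, Finset.mul_sum]
    refine Finset.sum_congr rfl fun j _ => ?_
    rw [Finset.sum_comm]
    refine Finset.sum_congr rfl fun P hP =>
      Finset.sum_congr rfl fun D hD => ?_
    rw [hw _ _ ((mem_eff h).mp hD).2.1 (inv_orbDiv ((mem_fixedSet h j.succ_pos).mp hP)), mul_comm]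
  rw [hA, hB]
  have hfwd : ∀ D P i, D ∈ eff h n → i < (D P).toNat →
      (i + 1) * per h P ≤ n ∧ 0 < (i + 1) * per h P ∧
      φ ^ ((i + 1) * per h P) • P = P ∧
      D - orbDiv φ P ((i + 1) * per h P) ∈ eff h (n - (i + 1) * per h P) := by
    intro D P i hD hi
    obtain ⟨h0, hinv, hdeg⟩ := (mem_eff h).mp hD
    have hle : orbDiv φ P ((i + 1) * per h P) ≤ D := by
      rw [orbDiv_mul]
      exact nsmul_orbDiv_le h h0 hinv (by omega)
    have hdle := degree_mono hle
    rw [degree_orbDiv, hdeg] at hdle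
    have hfix : φ ^ ((i + 1) * per h P) • P = P :=
      pow_smul_fixed (pow_per h P) (dvd_mul_left _ _)
    refine ⟨by exact_mod_cast hdle, Nat.mul_pos i.succ_pos (per_pos h P), hfix, (mem_eff h).mpr
      ⟨sub_nonneg.mpr hle, hinv.sub (inv_orbDiv hfix), ?_⟩⟩
    rw [map_sub, hdeg, degree_orbDiv, Nat.cast_sub (by exact_mod_cast hdle)]
  refine Finset.sum_bij'
    (fun x _ => ⟨(x.2.2 + 1) * per h x.2.1 - 1, x.2.1,
      x.1 - orbDiv φ x.2.1 ((x.2.2 + 1) * per h x.2.1)⟩)
    (fun y _ => ⟨y.2.2 + orbDiv φ y.2.1 (y.1 + 1), y.2.1, (y.1 + 1) / per h y.2.1 - 1⟩)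
    ?_ ?_ ?_ ?_ ?_
  · rintro ⟨D, P, i⟩ hx
    simp only [A, Finset.mem_sigma, Finset.mem_range] at hx
    obtain ⟨hle, hpos, hfix, hmem⟩ := hfwd D P i hx.1 hx.2.2
    simp only [B, Finset.mem_sigma, Finset.mem_range, Finset.mem_product]
    rw [Nat.sub_add_cancel hpos]
    exact ⟨by omega, (mem_fixedSet h hpos).mpr hfix, hmem⟩
  · rintro ⟨j, P, D⟩ hy
    simp only [B, Finset.mem_sigma, Finset.mem_range, Finset.mem_product] at hy
    obtain ⟨hj, hP, hD⟩ := hy
    have hP' : φ ^ (j + 1) • P = P := (mem_fixedSet h j.succ_pos).mp hP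
    obtain ⟨h0, hinv, hdeg⟩ := (mem_eff h).mp hD
    obtain ⟨c, hc⟩ := per_dvd h hP'
    have hc0 : 0 < c := Nat.pos_of_ne_zero fun h0 => by rw [h0, mul_zero] at hc; omega
    have hval : orbDiv φ P (j + 1) P = c := by
      rw [hc, mul_comm, orbDiv_mul, Finsupp.smul_apply, orbDiv_per_apply_self, nsmul_one]
    have hDP : (0 : ℤ) ≤ D P := Finsupp.le_def.mp h0 P
    have hdiv : (j + 1) / per h P = c := by rw [hc, Nat.mul_div_cancel_left _ (per_pos h P)]
    simp only [A, Finset.mem_sigma, Finset.mem_range, mem_eff, Finsupp.mem_support_iff,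
      Finsupp.add_apply, hval, hdiv]
    refine ⟨⟨add_nonneg h0 (orbDiv_nonneg _ _), hinv.add (inv_orbDiv hP'), ?_⟩, by omega, by omega⟩
    rw [map_add, hdeg, degree_orbDiv]
    omega
  · rintro ⟨D, P, i⟩ hx
    simp only [A, Finset.mem_sigma, Finset.mem_range] at hx
    obtain ⟨-, hpos, -, -⟩ := hfwd D P i hx.1 hx.2.2
    simp only [Nat.sub_add_cancel (Nat.one_le_iff_ne_zero.mpr hpos.ne'), sub_add_cancel,
      Nat.mul_div_cancel _ (per_pos h P), Nat.add_sub_cancel]
  · rintro ⟨j, P, D⟩ hy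
    simp only [B, Finset.mem_sigma, Finset.mem_range, Finset.mem_product] at hy
    obtain ⟨c, hc⟩ : per h P ∣ j + 1 := per_dvd h ((mem_fixedSet h j.succ_pos).mp hy.2.1)
    have hc0 : 0 < c := Nat.pos_of_ne_zero fun h0 => by rw [h0, mul_zero] at hc; omega
    have hdiv : (j + 1) / per h P = c := by rw [hc, Nat.mul_div_cancel_left _ (per_pos h P)]
    have h2 : (c - 1 + 1) * per h P = j + 1 := by
      rw [Nat.sub_add_cancel hc0, mul_comm, ← hc]
    simp only [hdiv, h2, Nat.add_sub_cancel, add_sub_cancel_right]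
  · rintro ⟨D, P, i⟩ hx
    simp only [A, Finset.mem_sigma, Finset.mem_range] at hx
    obtain ⟨-, hpos, -, -⟩ := hfwd D P i hx.1 hx.2.2
    simp only [Nat.sub_add_cancel (Nat.one_le_iff_ne_zero.mpr hpos.ne'), sub_add_cancel]

end Fermat.Agent.CurveTorsion
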