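import Fermat.Agent.FF.Kaehler

/-!
# A curve that is essentially of finite type is a function field
-/

set_option autoImplicit false

noncomputable section

open AlgebraicCurve Polynomial IntermediateField KaehlerDifferential

namespace Fermat.Agent.CurveTorsion

open FF

theorem isFunctionField_of_isCurveOver (K F : Type*) [Field K] [Field F] [Algebra K F]
    [IsAlgClosed K] [IsCurveOver K F] [Algebra.EssFiniteType K F] : IsFunctionField K F := by
  obtain ⟨x, hx⟩ : ∃ x : F, KaehlerDifferential.D K F x ≠ 0 := by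
    by_contra! h
    obtain ⟨w, hw⟩ := exists_ne (0 : Ω[F⁄K])
    have hle : Submodule.span F (Set.range (KaehlerDifferential.D K F)) ≤ ⊥ :=
      Submodule.span_le.mpr (by rintro _ ⟨y, rfl⟩; exact h y)
    rw [KaehlerDifferential.span_range_derivation] at hle
    exact hw ((Submodule.mem_bot F).mp (hle Submodule.mem_top))
  have hxt : Transcendental K x := fun halg => hx (by
    have : FiniteDimensional K K⟮x⟯ := IntermediateField.adjoin.finiteDimensional halg.isIntegral
    obtain ⟨a, ha⟩ := IntermediateField.mem_bot.mp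
      (IntermediateField.eq_bot_of_isAlgClosed_of_isAlgebraic K⟮x⟯ ▸ mem_adjoin_simple_self K x)
    rw [← ha, Derivation.map_algebraMap])
  have hspan : Submodule.span F {KaehlerDifferential.D K F x} = (⊤ : Submodule F Ω[F⁄K]) :=
    (finrank_eq_one_iff_of_nonzero _ hx).mp IsCurveOver.finrank_kaehler
  have hsurj : Function.Surjective (KaehlerDifferential.map K K⟮x⟯ F F) :=
    KaehlerDifferential.map_surjective K K⟮x⟯ F
  have hzero : ∀ c : Ω[F⁄↥K⟮x⟯], c = 0 := fun c => by
    obtain ⟨d, rfl⟩ := hsurj c
    obtain ⟨a, rfl⟩ := Submodule.mem_span_singleton.mp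
      (hspan ▸ Submodule.mem_top : d ∈ Submodule.span F {KaehlerDifferential.D K F x})
    rw [map_smul, KaehlerDifferential.map_D]
    have h0 : KaehlerDifferential.D K⟮x⟯ F
        (algebraMap K⟮x⟯ F (AdjoinSimple.gen K x)) = 0 := Derivation.map_algebraMap _ _
    rw [AdjoinSimple.algebraMap_gen] at h0
    rw [Algebra.algebraMap_self, RingHom.id_apply, h0, smul_zero]
  have : Algebra.FormallyUnramified K⟮x⟯ F := ⟨⟨fun a b => by rw [hzero a, hzero b]⟩⟩
  have : Algebra.EssFiniteType K⟮x⟯ F := Algebra.EssFiniteType.of_comp K K⟮x⟯ F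
  have := Algebra.FormallyUnramified.finite_of_free K⟮x⟯ F
  exact isFunctionField_of_finite hxt

end Fermat.Agent.CurveTorsion
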