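import Fermat.Agent.CurveTorsion.Spread
import Fermat.Agent.CurveTorsion.ValRing
import Fermat.Agent.CurveTorsion.Space
import Fermat.Agent.CurveTorsion.FrobBuild

/-!
# Reduction of curve data to a field algebraic over a prime field
-/

set_option autoImplicit false

noncomputable section

open scoped Classical

open Polynomial AlgebraicCurve
open scoped Polynomial.Bivariate

namespace Fermat.Agent.CurveTorsion

open FF

set_option linter.unusedSectionVars false
set_option synthInstance.maxHeartbeats 200000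

universe u

/-- Curve data over a field algebraic over `𝔽_p` have the expected torsion. -/
theorem natCard_torsion_of_algebraic {k : Type u} [Field k] [IsAlgClosed k] {p : ℕ}
    [Fact p.Prime] [CharP k p]
    (hk : ∀ a : k, ∃ Q : ℤ[X], Q.map (Int.castRingHom k) ≠ 0 ∧ aeval a Q = 0)
    {n : ℕ} {D : CurveData k n} (hD : D.IsValid) (l : ℕ) [Fact l.Prime] (hl : (l : k) ≠ 0)
    (j : ℕ) :
    ∃ (F : Type u) (_ : Field F) (_ : Algebra k F) (_ : IsFunctionField k F) (x θ : F),
      Realizes D x θ ∧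
      Nat.card (Pic0.torsion k F (l ^ j)) = l ^ (2 * genusFF k F * j) := by
  obtain ⟨F, _, _, _, x, θ, H, hσ⟩ := exists_realizes hD
  refine ⟨F, _, _, ‹_›, x, θ, H, ?_⟩
  let := ZMod.algebra k p
  have hcomp : Int.castRingHom k = (algebraMap (ZMod p) k).comp (Int.castRingHom (ZMod p)) :=
    RingHom.ext_int _ _
  have hpow : ∀ a : k, ∃ r, 0 < r ∧ a ^ (p ^ r) = a := fun a => by
    obtain ⟨Q, hQ, hQa⟩ := hk a
    refine exists_pow_pow_eq (IsAlgebraic.isIntegral
      ⟨Q.map (Int.castRingHom (ZMod p)), fun h => hQ ?_, ?_⟩)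
    · rw [hcomp, ← Polynomial.map_map, h, Polynomial.map_zero]
    · rw [aeval_def, eval₂_map, ← hcomp, ← algebraMap_int_eq, ← aeval_def, hQa]
  choose r hr hr' using hpow
  let I := Σ i : Fin (D.h.natDegree + 1), Fin ((D.h.coeff i).natDegree + 1)
  let co : I → k := fun e => (D.h.coeff e.1).coeff e.2
  let s := ∏ e, r (co e)
  have hs : 0 < s := Finset.prod_pos fun e _ => hr _
  have hfix : ∀ i j, ((D.h.coeff i).coeff j) ^ (p ^ s) = (D.h.coeff i).coeff j := by
    intro i j
    rcases lt_or_ge i (D.h.natDegree + 1) with hi | hi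
    · rcases lt_or_ge j ((D.h.coeff i).natDegree + 1) with hj | hj
      · obtain ⟨e, he⟩ := Finset.dvd_prod_of_mem (fun e => r (co e))
          (Finset.mem_univ (⟨⟨i, hi⟩, ⟨j, hj⟩⟩ : I))
        rw [show s = r (co ⟨⟨i, hi⟩, ⟨j, hj⟩⟩) * e from he]
        exact pow_pow_mul (hr' _) e
      · rw [coeff_eq_zero_of_natDegree_lt (by omega : (D.h.coeff i).natDegree < j),
          zero_pow (pow_ne_zero _ (Fact.out : p.Prime).ne_zero)]
    · rw [coeff_eq_zero_of_natDegree_lt (by omega : D.h.natDegree < i), coeff_zero,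
        zero_pow (pow_ne_zero _ (Fact.out : p.Prime).ne_zero)]
  have : ExpChar k p := ExpChar.prime (Fact.out : p.Prime)
  have : PerfectRing k p := PerfectField.toPerfectRing p
  let σ : k ≃+* k := iterateFrobeniusEquiv k p s
  obtain ⟨g, hg, hgx, hgθ⟩ := hσ σ (by
    refine Polynomial.ext fun i => Polynomial.ext fun j => ?_
    rw [coeff_map, coe_mapRingHom, coeff_map]
    exact hfix i j)
  have hfrob : IsFrob g (p ^ s) := IsFrob.of_generated hs (fun a => ⟨r a, hr a, hr' a⟩) g
    (fun a => by rw [hg]; rfl) {x, θ} H.gen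
    (fun z hz => by
      rcases hz with rfl | rfl
      · exact hgx
      · exact hgθ) ⟨x, H.trans, hgx⟩
  refine natCard_torsion_of_isFrob hfrob l (fun hdvd => hl ?_) j
  have hlp : l = p :=
    (Nat.prime_dvd_prime_iff_eq (Fact.out) (Fact.out)).mp (Nat.Prime.dvd_of_dvd_pow (Fact.out) hdvd)
  rw [hlp, CharP.cast_eq_zero]

variable {K : Type u} [Field K] [IsAlgClosed K] [CharZero K]

/-- A place of the constant field where everything has good reduction. -/
theorem exists_reduction {n : ℕ} {D : CurveData K n} (hD : D.IsValid) (l : ℕ) [hl : Fact l.Prime]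
    (j : ℕ) (S : Finset K) :
    ∃ A : ValuationSubring K, (∀ a ∈ S, a ∈ A) ∧ (l : IsLocalRing.ResidueField A) ≠ 0 ∧
      ∃ DA : CurveData A n, DA.IsValid ∧ DA.map A.subtype = D ∧
      ∃ (F : Type u) (_ : Field F) (_ : Algebra (IsLocalRing.ResidueField A) F)
        (_ : IsFunctionField (IsLocalRing.ResidueField A) F) (x θ : F),
        Realizes (DA.map (IsLocalRing.residue A)) x θ ∧
        Nat.card (Pic0.torsion (IsLocalRing.ResidueField A) F (l ^ j))
          = l ^ (2 * genusFF (IsLocalRing.ResidueField A) F * j) := by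
  obtain ⟨S0, hS0⟩ := big_curveData hD
  obtain ⟨A, p, hp, hSA, ⟨hlA, hlu⟩, hchar, halg⟩ :=
    exists_valuationSubring (S ∪ S0) (l : K) (Nat.cast_ne_zero.mpr hl.out.ne_zero)
  have hlk : (l : IsLocalRing.ResidueField A) ≠ 0 := by
    have h1 := hlu.map (IsLocalRing.residue A)
    rw [show (⟨(l : K), hlA⟩ : A) = (l : A) from Subtype.ext (by simp), map_natCast] at h1
    exact h1.ne_zero
  obtain ⟨DA, hDA, hmap⟩ := hS0 A.toSubring fun a ha => hSA a (Finset.mem_union_right _ ha)
  refine ⟨A, fun a ha => hSA a (Finset.mem_union_left _ ha), hlk, DA, hDA, hmap, ?_⟩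
  have : Fact p.Prime := ⟨hp⟩
  exact natCard_torsion_of_algebraic halg (hDA.map (IsLocalRing.residue A)) l hlk j

end Fermat.Agent.CurveTorsion
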