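import Fermat.Agent.CurveTorsion.Jacobian
import Fermat.Agent.CurveTorsion.Reduction

/-!
# Torsion classes lift from the residue field
-/

set_option autoImplicit false

noncomputable section

open scoped Classical

open Polynomial AlgebraicCurve
open scoped Polynomial.Bivariate

namespace Fermat.Agent.CurveTorsion

open FF

set_option linter.unusedSectionVars false
set_option synthInstance.maxHeartbeats 200000

section Lift

universe u

variable {K : Type u} [Field K] [IsAlgClosed K] (A : ValuationSubring K) {n : ℕ}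

theorem exists_lift_data {DA : CurveData A n}
    (hDA : (DA.map (IsLocalRing.residue A)).IsValid) {F : Type*} [Field F]
    [Algebra (IsLocalRing.ResidueField A) F] [IsFunctionField (IsLocalRing.ResidueField A) F]
    {x θ : F} (H : Realizes (DA.map (IsLocalRing.residue A)) x θ) {N M : ℕ} (hN : 0 < N)
    (hNk : (N : IsLocalRing.ResidueField A) ≠ 0) (hm : ∀ i, DA.m i ≤ N * M)
    {tk : Fin (M * n) → IsLocalRing.ResidueField A}
    {zk : Fin (M * n) → Fin N → IsLocalRing.ResidueField A}
    {ck : CIdx (DA.map (IsLocalRing.residue A)).m (N * M) → IsLocalRing.ResidueField A}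
    {e0 : CIdx DA.m (N * M)} (hg : GoodPts (DA.map (IsLocalRing.residue A)) tk zk)
    (he0 : ck e0 = 1)
    (hv : ∀ i, (DA.map (IsLocalRing.residue A)).Van ck N (tk i) (zk i))
    {S : Finset (Fin (M * n))} (hSc : S.card = genusFF (IsLocalRing.ResidueField A) F)
    (hS : ell (IsLocalRing.ResidueField A)
      (∑ i ∈ S, Finsupp.single (seriesPlace x θ (tk i) (zk i)) (1 : ℤ)) = 1) :
    ∃ (t : Fin (M * n) → A) (z : Fin (M * n) → Fin N → A) (c : CIdx DA.m (N * M) → A),
      c e0 = 1 ∧ (∀ i, DA.IsPt (t i) (z i) ∧ DA.Van c N (t i) (z i)) ∧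
      (∀ i, IsLocalRing.residue A (t i) = tk i) ∧
      (∀ i j, IsLocalRing.residue A (z i j) = zk i j) := by
  choose t0 ht0 using fun i => IsLocalRing.residue_surjective (tk i)
  let ι := Unk DA.m S N (N * M) e0
  let Q := (Fin (M * n) × Fin N) ⊕ (Fin (M * n) × Fin N)
  have hcard : Fintype.card ι = Fintype.card Q := by
    have h1 := H.card_CIdx (M := N * M) hm
    have h2 : Fintype.card {e : CIdx DA.m (N * M) // e ≠ e0}
        = Fintype.card (CIdx DA.m (N * M)) - 1 := Set.card_ne_eq e0
    have h3 : 0 < Fintype.card (CIdx DA.m (N * M)) := Fintype.card_pos_iff.mpr ⟨e0⟩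
    simp only [ι, Q, Unk, Fintype.card_sum, Fintype.card_prod, Fintype.card_fin, Fintype.card_coe,
      hSc]
    rw [h2]
    have h4 : ((N * M : ℕ) : ℤ) * n = ((M * n * N : ℕ) : ℤ) := by push_cast; ring
    rw [h4] at h1
    change (Fintype.card (CIdx DA.m (N * M)) : ℤ) = _ at h1
    omega
  let eq : ι ≃ Q := Fintype.equivOfCardEq hcard
  let a0 : ι → IsLocalRing.ResidueField A :=
    Sum.elim (fun i => tk i) (Sum.elim (fun p => zk p.1 p.2) fun e => ck e.1)
  let mC : A →+* MvPolynomial ι A := MvPolynomial.C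
  let G : ι → MvPolynomial ι A := fun u =>
    sysEq (DA.h.map (mapRingHom mC)) (fun i => (DA.U i).map (mapRingHom mC)) S e0
      (fun i => mC (t0 i)) MvPolynomial.X (eq u)
  have ht : ∀ i, tOf S (fun i => (IsLocalRing.residue A) (t0 i)) a0 i = tk i := fun i => by
    unfold tOf; split_ifs with h
    · rfl
    · exact ht0 i
  have hz : ∀ i, zOf S a0 i = zk i := fun i => rfl
  have hc : ∀ e : CIdx DA.m (N * M), cOf S a0 e = ck e := fun e => by
    by_cases h : e = e0
    · rw [cOf, dif_pos h, h]; exact he0.symm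
    · rw [cOf, dif_neg h]; rfl
  have hG : ∀ u, MvPolynomial.aeval a0 (G u) = 0 := by
    intro u
    refine (sysEq_map_comp DA.h DA.U mC (MvPolynomial.aeval a0).toRingHom (IsLocalRing.residue A)
      (RingHom.ext fun a => MvPolynomial.aeval_C a0 a) S e0 t0 MvPolynomial.X (eq u)).trans ?_
    simp only [AlgHom.toRingHom_eq_coe, RingHom.coe_coe, MvPolynomial.aeval_X]
    refine (sysEq_eq_zero_iff _ _ S e0 _ _).mpr (fun i => ?_) (eq u)
    rw [show cOf S a0 = (ck : CIdx DA.m (N * M) → _) from funext hc, ht, hz]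
    exact ⟨hg.isPt i, hv i⟩
  have hJ : (Matrix.of fun u w => MvPolynomial.aeval a0 (MvPolynomial.pderiv u (G w))).det ≠ 0 := by
    intro hdet
    obtain ⟨v, hv0, hvM⟩ := Matrix.exists_vecMul_eq_zero_iff.mpr hdet
    obtain ⟨D', _, _, ε, hε, hsep⟩ := exists_dual (IsLocalRing.ResidueField A)
    set alg := algebraMap (IsLocalRing.ResidueField A) D'
    let τ : Fin (M * n) → IsLocalRing.ResidueField A := fun i =>
      if h : i ∈ S then v (Sum.inl ⟨i, h⟩) else 0
    let η : Fin (M * n) → Fin N → IsLocalRing.ResidueField A := fun i j => v (Sum.inr (Sum.inl (i, j)))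
    let φ : CIdx DA.m (N * M) → IsLocalRing.ResidueField A := fun e =>
      if h : e = e0 then 0 else v (Sum.inr (Sum.inr ⟨e, h⟩))
    let a1 : ι → D' := fun u => alg (a0 u) + ε * alg (v u)
    have hzero : ∀ q, sysEq (DA.h.map (mapRingHom (alg.comp (IsLocalRing.residue A))))
        (fun i => (DA.U i).map (mapRingHom (alg.comp (IsLocalRing.residue A)))) S e0
        (fun i => alg (IsLocalRing.residue A (t0 i))) a1 q = 0 := by
      intro q
      have h1 := eval₂_eps hε (IsLocalRing.residue A) a0 v (G (eq.symm q))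
      have h2 : MvPolynomial.eval₂ (IsLocalRing.residue A) a0 (G (eq.symm q)) = 0 := hG (eq.symm q)
      have h3 : ∑ u, v u * MvPolynomial.eval₂ (IsLocalRing.residue A) a0 (MvPolynomial.pderiv u (G (eq.symm q))) = 0 :=
        congrFun hvM (eq.symm q)
      rw [h2, h3, map_zero, mul_zero, add_zero] at h1
      rw [← h1]
      refine Eq.trans ?_ (sysEq_map_comp DA.h DA.U mC
        (MvPolynomial.eval₂Hom (alg.comp (IsLocalRing.residue A)) a1) (alg.comp (IsLocalRing.residue A))
        (RingHom.ext fun a => MvPolynomial.eval₂Hom_C _ _ a) S e0 t0 MvPolynomial.X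
        (eq (eq.symm q))).symm
      simp only [MvPolynomial.eval₂Hom_X', Equiv.apply_symm_apply, RingHom.comp_apply]
    have htD : ∀ i, tOf S (fun i => alg ((IsLocalRing.residue A) (t0 i))) a1 i = alg (tk i) + ε * alg (τ i) := fun i => by
      unfold tOf; simp only [τ, a1]; split_ifs with h
      · rfl
      · rw [ht0, map_zero, mul_zero, add_zero]
    have hzD : ∀ i, zpoly (zOf S a1 i) = incl (zpoly (zk i)) + C ε * incl (zpoly (η i)) := fun i =>
      zpoly_incl ε (zk i) (η i)
    have hcD : ∀ e : CIdx DA.m (N * M), cOf S a1 e = alg (ck e) + ε * alg (φ e) := fun e => by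
      by_cases h : e = e0
      · simp only [cOf, φ, dif_pos h]
        rw [h, he0, map_one, map_zero, mul_zero, add_zero]
      · simp only [cOf, φ, dif_neg h]
        rfl
    have hk := H.kernel_eq_zero hDA hN hNk hg rfl he0 hv hS (τ := τ)
      (fun i hi => dif_neg hi) (η := η) (φ := φ) (dif_pos rfl) (fun i ζ hζ => ?_)
    · obtain ⟨h1, h2, h3⟩ := hk
      refine hv0 (funext fun u => ?_)
      rcases u with ⟨i, hi⟩ | ⟨i, j⟩ | ⟨e, he⟩
      · have := h1 i
        simpa [τ, dif_pos hi] using this
      · exact congrFun (h2 i) j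
      · have := congrFun h3 e
        exact (dif_neg he).symm.trans this
    · obtain ⟨h1, h2⟩ := (sysEq_eq_zero_iff _ _ S e0 _ _).mp hzero i
      have hh : DA.h.map (mapRingHom (alg.comp (IsLocalRing.residue A)))
          = ((DA.map (IsLocalRing.residue A)).h).map (mapRingHom alg) := by
        simp [CurveData.map, Polynomial.map_map, mapRingHom_comp]
      have hgp : ∑ l, C (cpoly (cOf S a1) l)
            * (DA.U l).map (mapRingHom (alg.comp (IsLocalRing.residue A)))
          = ((DA.map (IsLocalRing.residue A)).map alg).gpoly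
            (fun e : CIdx ((DA.map (IsLocalRing.residue A)).map alg).m (N * M) =>
              alg (ck e) + ε * alg (φ e)) := by
        refine Finset.sum_congr rfl fun l _ => ?_
        rw [show cOf S a1 = fun e : CIdx DA.m (N * M) => alg (ck e) + ε * alg (φ e) from funext hcD]
        simp [CurveData.map, Polynomial.map_map, mapRingHom_comp]
      rw [htD, hzD] at h1 h2
      rw [hh] at h1
      rw [hgp] at h2
      have hcong : (X : D'[X]) ^ N ∣ (incl (zpoly (zk i)) + C ε * incl (zpoly (η i)))
          - (incl ζ + C ε * incl (zpoly (η i))) := by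
        rw [add_sub_add_right_eq_sub, ← map_sub]
        simpa [incl] using X_pow_dvd_map alg hζ
      rw [dvd_ev_congr le_rfl hcong] at h1 h2
      rw [ev_dual hε] at h1
      rw [ev_gpoly_dual hε] at h2
      exact ⟨X_pow_dvd_incl_add hsep h1, X_pow_dvd_incl_add hsep h2⟩
  obtain ⟨a, ha, hres⟩ := exists_lift A G a0 hG hJ
  have hsol : ∀ q, sysEq DA.h DA.U S e0 t0 a q = 0 := fun q => by
    have h2 := (sysEq_map_comp DA.h DA.U mC (MvPolynomial.aeval a).toRingHom (RingHom.id A)
      (RingHom.ext fun b => MvPolynomial.aeval_C a b) S e0 t0 MvPolynomial.X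
      (eq (eq.symm q))).symm.trans (ha (eq.symm q))
    simpa only [AlgHom.toRingHom_eq_coe, RingHom.coe_coe, MvPolynomial.aeval_X, mapRingHom_id,
      Polynomial.map_id, Equiv.apply_symm_apply, RingHom.id_apply] using h2
  refine ⟨tOf S t0 a, zOf S a, cOf S a, dif_pos rfl,
    (sysEq_eq_zero_iff DA.h DA.U S e0 t0 a).mp hsol, fun i => ?_, fun i j => hres _⟩
  · unfold tOf
    split_ifs with h
    · exact hres _
    · exact ht0 i

/-- A nonzero vector can be scaled to be integral and primitive. -/
theorem exists_primitive {ι : Type*} [Fintype ι] {c : ι → K} (hc : c ≠ 0) :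
    ∃ (b : K) (cA : ι → A), (∀ e, (cA e : K) = b * c e) ∧ ∃ e, cA e = 1 := by
  obtain ⟨i, hi⟩ := Function.ne_iff.mp hc
  obtain ⟨e, -, he⟩ := Finset.exists_max_image Finset.univ (fun e => A.valuation (c e))
    ⟨i, Finset.mem_univ i⟩
  have hce : c e ≠ 0 := fun h => hi (by
    have := he i (Finset.mem_univ i)
    rw [h, map_zero, le_zero_iff, map_eq_zero] at this
    exact this)
  have hmem : ∀ l, (c e)⁻¹ * c l ∈ A := fun l => by
    rw [← A.valuation_le_one_iff, map_mul, map_inv₀]
    exact (inv_mul_le_one₀ (pos_iff_ne_zero.mpr ((map_ne_zero A.valuation).mpr hce))).mpr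
      (he l (Finset.mem_univ l))
  exact ⟨(c e)⁻¹, fun l => ⟨_, hmem l⟩, fun l => rfl, e, Subtype.ext (inv_mul_cancel₀ hce)⟩

end Lift

/-- Chosen data for a class over the residue field. -/
structure RepLift {K F : Type*} [Field K] [Field F] [Algebra K F] [IsFunctionField K F]
    [IsAlgClosed K] {n : ℕ} (D : CurveData K n) (x θ : F) (M N : ℕ) where
  /-- The coordinates. -/
  t : Fin (M * n) → K
  /-- The series. -/
  z : Fin (M * n) → Fin N → K
  /-- The coefficients. -/
  c : CIdx D.m (N * M) → K
  /-- The normalised index. -/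
  e : CIdx D.m (N * M)
  /-- The moving points. -/
  S : Finset (Fin (M * n))
  good : GoodPts D t z
  one : c e = 1
  van : ∀ i, D.Van c N (t i) (z i)
  cardS : S.card = genusFF K F
  ellS : ell K (∑ i ∈ S, Finsupp.single (seriesPlace x θ (t i) (z i)) (1 : ℤ)) = 1

theorem exists_repLifts {K F : Type*} [Field K] [Field F] [Algebra K F] [IsFunctionField K F]
    [IsAlgClosed K] {n : ℕ} {D : CurveData K n} {x θ : F} (H : Realizes D x θ) (hD : D.IsValid)
    {N : ℕ} (hN : 0 < N) {M : ℕ} (hM : 2 * (genusFF K F : ℤ) + 2 ≤ (M : ℤ) * n)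
    (P₀ : Place K F) (C' : Finset (Pic0.torsion K F N)) :
    ∃ R : Pic0.torsion K F N → RepLift D x θ M N,
      (∀ c ∈ C', ptsClass P₀ x θ M (R c).t (R c).z = (c : Pic0 K F)) ∧
      ∀ c ∈ C', ∀ c' ∈ C', c ≠ c' → ∀ i i', (R c).t i ≠ (R c').t i' := by
  induction C' using Finset.induction_on with
  | empty =>
    obtain ⟨t, z, c, e, S, hg, -, h1, hv, -, hS, hS'⟩ :=
      H.exists_pts hD hN M hM P₀ 0 (zero_mem _) ∅
    exact ⟨fun _ => ⟨t, z, c, e, S, hg, h1, hv, hS, hS'⟩, by simp, by simp⟩
  | insert a s ha ih =>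
    obtain ⟨R, hR, hd⟩ := ih
    obtain ⟨t, z, c, e, S, hg, hT, h1, hv, hcl, hS, hS'⟩ := H.exists_pts hD hN M hM P₀ a a.2
      (s.biUnion fun c => Finset.univ.image (R c).t)
    refine ⟨Function.update R a ⟨t, z, c, e, S, hg, h1, hv, hS, hS'⟩, fun b hb => ?_, ?_⟩
    · rcases Finset.mem_insert.mp hb with rfl | hb
      · simpa using hcl
      · rw [Function.update_of_ne (fun h : b = a => ha (h ▸ hb))]
        exact hR b hb
    · intro b hb b' hb' hne i i'
      rcases Finset.mem_insert.mp hb with hba | hbs <;>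
        rcases Finset.mem_insert.mp hb' with hba' | hbs'
      · exact absurd (hba.trans hba'.symm) hne
      · subst hba
        rw [Function.update_self, Function.update_of_ne hne.symm]
        intro h
        exact hT i (Finset.mem_biUnion.mpr
          ⟨b', hbs', Finset.mem_image.mpr ⟨i', Finset.mem_univ _, h.symm⟩⟩)
      · subst hba'
        rw [Function.update_self, Function.update_of_ne hne]
        intro h
        exact hT i' (Finset.mem_biUnion.mpr
          ⟨b, hbs, Finset.mem_image.mpr ⟨i, Finset.mem_univ _, h⟩⟩)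
      · rw [Function.update_of_ne (fun h : b = a => ha (h ▸ hbs)),
          Function.update_of_ne (fun h : b' = a => ha (h ▸ hbs'))]
        exact hd b hbs b' hbs' hne i i'

universe u

variable {K : Type u} [Field K] [IsAlgClosed K] [CharZero K]

theorem pow_le_natCard_torsion {n : ℕ} {F : Type*} [Field F] [Algebra K F] [IsFunctionField K F]
    {D : CurveData K n} {x θ : F} (H : Realizes D x θ) (hD : D.IsValid) (l : ℕ) [hl : Fact l.Prime]
    (j : ℕ) [Finite (Pic0.torsion K F (l ^ j))] :
    l ^ (2 * genusFF K F * j) ≤ Nat.card (Pic0.torsion K F (l ^ j)) := by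
  set N := l ^ j
  have hN : 0 < N := pow_pos hl.out.pos j
  obtain ⟨A, -, hlk, DA, hDA, hmap, Fb, _, _, _, xb, θb, Hb, hcard⟩ := exists_reduction hD l j ∅
  subst hmap
  have hg : genusFF (IsLocalRing.ResidueField A) Fb = genusFF K F := by
    have h1 := Hb.sum_m
    have h2 := H.sum_m
    simp only [CurveData.map] at h1 h2
    omega
  have hNk : (N : IsLocalRing.ResidueField A) ≠ 0 := by
    simp only [N, Nat.cast_pow]
    exact pow_ne_zero _ hlk
  set M := 2 * genusFF K F + 2 + ∑ i, DA.m i
  have hn : 0 < n := lt_of_le_of_lt (Nat.zero_le _) DA.i0.2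
  have hM : 2 * (genusFF (IsLocalRing.ResidueField A) Fb : ℤ) + 2 ≤ (M : ℤ) * n := by
    have h1 : (1 : ℤ) ≤ n := by exact_mod_cast hn
    have h2 : (2 * genusFF K F + 2 : ℤ) ≤ M := by
      have : 2 * genusFF K F + 2 ≤ M := Nat.le_add_right _ _
      exact_mod_cast this
    rw [hg]
    nlinarith
  have hm : ∀ i, DA.m i ≤ N * M := fun i =>
    ((Finset.single_le_sum (f := DA.m) (fun _ _ => Nat.zero_le _) (Finset.mem_univ i)).trans
      (Nat.le_add_left _ _)).trans (Nat.le_mul_of_pos_left M hN)
  obtain ⟨Q₀⟩ := FF.exists_place (K := IsLocalRing.ResidueField A) (F := Fb)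
  obtain ⟨P₀⟩ := FF.exists_place (K := K) (F := F)
  have hfin : Finite (Pic0.torsion (IsLocalRing.ResidueField A) Fb N) :=
    Nat.finite_of_card_ne_zero (by rw [hcard]; exact pow_ne_zero _ hl.out.ne_zero)
  have := Fintype.ofFinite (Pic0.torsion (IsLocalRing.ResidueField A) Fb N)
  have hDk := hDA.map (IsLocalRing.residue A)
  obtain ⟨R, hR, hdisj⟩ := exists_repLifts Hb hDk hN hM Q₀ Finset.univ
  have hlift := fun a => exists_lift_data A hDk Hb hN hNk hm (R a).good (R a).one (R a).van
    (R a).cardS (R a).ellS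
  choose tA zA cA hone hpt ht hz using hlift
  have hgood : ∀ a, GoodPts (DA.map A.subtype) (fun i => (tA a i : K))
      (fun i j => (zA a i j : K)) := fun a => by
    refine ⟨fun i h0 => (R a).good.Δ_ne i ?_, fun i => (hpt a i).1.map A.subtype, fun i i' h => ?_⟩
    · have h1 : (DA.map A.subtype).Δ.eval (tA a i : K) = A.subtype (DA.Δ.eval (tA a i)) :=
        eval_map_apply (f := A.subtype) (p := DA.Δ) (tA a i)
      rw [h1, ← map_zero A.subtype] at h0
      have h2 : (DA.map (IsLocalRing.residue A)).Δ.eval (IsLocalRing.residue A (tA a i))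
          = IsLocalRing.residue A (DA.Δ.eval (tA a i)) := eval_map_apply ..
      rw [← ht a i, h2, A.subtype_injective h0, map_zero]
    · obtain ⟨e1, e2⟩ := Prod.ext_iff.mp h
      simp only [coeff_zero_zpoly _ hN] at e1 e2
      refine (R a).good.inj (Prod.ext ?_ ?_)
      · simp only [← ht a, show tA a i = tA a i' from Subtype.ext e1]
      · simp only [coeff_zero_zpoly _ hN, ← hz a,
          show zA a i ⟨0, hN⟩ = zA a i' ⟨0, hN⟩ from Subtype.ext e2]
  have hcne : ∀ a, (fun e : CIdx (DA.map A.subtype).m (N * M) => (cA a e : K)) ≠ 0 := fun a h => by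
    have h1 := congrFun h ((R a).e : CIdx DA.m (N * M))
    rw [hone a] at h1
    exact one_ne_zero (α := K) h1
  have hvan : ∀ a i, (DA.map A.subtype).Van
      (fun e : CIdx (DA.map A.subtype).m (N * M) => (cA a e : K)) N (tA a i : K)
      (fun j => (zA a i j : K)) := fun a i => (hpt a i).2.map A.subtype
  let cl : Pic0.torsion (IsLocalRing.ResidueField A) Fb N → Pic0.torsion K F N := fun a =>
    ⟨ptsClass P₀ x θ M (fun i => (tA a i : K)) (fun i j => (zA a i j : K)),
      H.ptsClass_torsion hD hN (hgood a) (Fintype.card_fin _) (hcne a) (hvan a) P₀⟩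
  have hinj : Function.Injective cl := by
    intro a b hab
    by_contra hne
    have hdis : ∀ i i', ((R a).t i, (zpoly ((R a).z i)).coeff 0)
        ≠ ((R b).t i', (zpoly ((R b).z i')).coeff 0) := fun i i' h =>
      hdisj a (Finset.mem_univ a) b (Finset.mem_univ b) hne i i' (Prod.ext_iff.mp h).1
    have hdisK : ∀ i i', ((tA a i : K), (zpoly fun j => (zA a i j : K)).coeff 0)
        ≠ ((tA b i' : K), (zpoly fun j => (zA b i' j : K)).coeff 0) := fun i i' h => by
      refine hdisj a (Finset.mem_univ a) b (Finset.mem_univ b) hne i i' ?_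
      rw [← ht a, ← ht b, show tA a i = tA b i' from Subtype.ext (Prod.ext_iff.mp h).1]
    obtain ⟨w, hw, hw1, hw2⟩ := (H.ptsClass_eq_iff hD hN (hgood a) (hgood b) hdisK
      (Fintype.card_fin _) (Fintype.card_fin _) (hcne b) (hvan b) P₀).mp (congrArg Subtype.val hab)
    obtain ⟨s, wA, hwA, e, he⟩ := exists_primitive A hw
    have hws : (fun e : CIdx (DA.map A.subtype).m (N * M) => (wA e : K)) = s • w :=
      funext fun e => hwA e
    have hred : ∀ (jj : ℕ) c i, (DA.map A.subtype).Van w jj (tA c i : K) (fun l => (zA c i l : K)) →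
        (DA.map (IsLocalRing.residue A)).Van
          (fun e : CIdx (DA.map (IsLocalRing.residue A)).m (N * M) => IsLocalRing.residue A (wA e))
          jj ((R c).t i) ((R c).z i) := by
      intro jj c i h
      have h1 : (DA.map A.subtype).Van
          (fun e : CIdx (DA.map A.subtype).m (N * M) => (wA e : K)) jj (tA c i : K)
          (fun l => (zA c i l : K)) := hws ▸ h.smul s
      have h3 : X ^ jj ∣ ev (tA c i) (zpoly (zA c i)) (DA.gpoly (wA : CIdx DA.m (N * M) → A)) := by
        rw [X_pow_dvd_iff]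
        intro l hl'
        apply A.subtype_injective
        rw [map_zero, ← coeff_map, ev_map, map_zpoly, CurveData.map_gpoly]
        exact X_pow_dvd_iff.mp h1 l hl'
      have h4 := CurveData.Van.map (IsLocalRing.residue A)
        (c := (wA : CIdx DA.m (N * M) → A)) h3
      simp only [ht, hz] at h4
      exact h4
    refine hne (Subtype.ext ?_)
    rw [← hR a (Finset.mem_univ a), ← hR b (Finset.mem_univ b)]
    refine (Hb.ptsClass_eq_iff hDk hN (R a).good (R b).good hdis (Fintype.card_fin _)
      (Fintype.card_fin _) (fun h => by simpa [h] using (R b).one) (R b).van Q₀).mpr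
      ⟨_, fun h => ?_, fun i => hred 1 a i (hw1 i), fun i => hred (N - 1) b i (hw2 i)⟩
    have h5 := congrFun h e
    exact one_ne_zero (((map_one (IsLocalRing.residue A)).symm.trans
      (congrArg (IsLocalRing.residue A) he.symm)).trans h5)
  have h := Nat.card_le_card_of_injective cl hinj
  rw [hcard, hg] at h
  exact h

end Fermat.Agent.CurveTorsion
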