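import Fermat.Agent.CurveTorsion.UpperBound
import Fermat.Agent.CurveTorsion.LowerBound
import Fermat.Agent.CurveTorsion.CurveModel
import Fermat.Agent.CurveTorsion.FromIsCurveOver
import Fermat.Agent.FF.Kaehler

/-!
# The prime power torsion of the degree zero class group in characteristic zero
-/

set_option autoImplicit false

noncomputable section

open scoped Classical

open AlgebraicCurve

namespace Fermat.Agent.CurveTorsion

open FF

set_option synthInstance.maxHeartbeats 200000

theorem natCard_torsion_pow_of_charZero (K F : Type*) [Field K] [Field F] [Algebra K F]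
    [IsAlgClosed K] [CharZero K] [IsFunctionField K F] (l : ℕ) [Fact l.Prime] (j : ℕ) :
    Nat.card (Pic0.torsion K F (l ^ j)) = l ^ (2 * genusFF K F * j) := by
  obtain ⟨x, hx, -⟩ := IsFunctionField.exists_finite (K := K) (F := F)
  have := isSeparable_adjoin (K := K) hx
  obtain ⟨D, θ, hD, H⟩ := exists_curveData (K := K) hx
  set N := l ^ j
  set B := l ^ (2 * genusFF K F * j)
  have hup : ∀ s : Finset (Pic0.torsion K F N), s.card ≤ B := fun s => by
    have := card_torsion_le H hD l j (s.map (Function.Embedding.subtype _)) fun c hc => by
      obtain ⟨d, -, rfl⟩ := Finset.mem_map.mp hc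
      exact d.2
    rwa [Finset.card_map] at this
  have hfin : Finite (Pic0.torsion K F N) := by
    by_contra hinf
    rw [not_finite_iff_infinite] at hinf
    obtain ⟨s, hs⟩ := Infinite.exists_subset_card_eq (Pic0.torsion K F N) (B + 1)
    have := hup s
    omega
  have := Fintype.ofFinite (Pic0.torsion K F N)
  refine le_antisymm ?_ (pow_le_natCard_torsion H hD l j)
  rw [Nat.card_eq_fintype_card]
  exact hup Finset.univ

end Fermat.Agent.CurveTorsion
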