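import Fermat.Agent.CurveTorsion.CurveData
import Fermat.Agent.RedTorsion.ReducedBasis
import Fermat.Prelude.Def_AlgebraicCurve_BaseChangeGalois
import Mathlib.FieldTheory.RatFunc.AsPolynomial
import Mathlib.LinearAlgebra.Dimension.OrzechProperty

/-!
# The function field of valid curve data over an algebraically closed field
-/

set_option autoImplicit false

noncomputable section

open scoped Classical

open Polynomial AlgebraicCurve IntermediateField
open scoped Polynomial.Bivariate

namespace Fermat.Agent.CurveTorsion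

open FF

set_option linter.unusedSectionVars false

universe u

/-- Evaluation of a bivariate polynomial. -/
def evalB {k E : Type*} [CommRing k] [CommRing E] [Algebra k E] (x θ : E) : k[X][Y] →+* E :=
  eval₂RingHom (aeval x).toRingHom θ

theorem evalB_C {k E : Type*} [CommRing k] [CommRing E] [Algebra k E] (x θ : E) (p : k[X]) :
    evalB x θ (C p) = aeval x p := eval₂_C _ _

theorem evalB_Y {k E : Type*} [CommRing k] [CommRing E] [Algebra k E] (x θ : E) :
    evalB (k := k) x θ Y = θ := eval₂_X _ _

/-- The basis elements. -/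
def CurveData.uElem {k F : Type*} [Field k] [Field F] [Algebra k F] {n : ℕ} (D : CurveData k n)
    (x θ : F) (i : Fin n) : F :=
  evalB x θ (D.U i) / aeval x D.Δ

/-- `(F, x, θ)` is the function field of the data `D`. -/
structure Realizes {k F : Type*} [Field k] [Field F] [Algebra k F] [IsFunctionField k F] {n : ℕ}
    (D : CurveData k n) (x θ : F) : Prop where
  trans : Transcendental k x
  root : evalB x θ D.h = 0
  finrank : Module.finrank k⟮x⟯ F = n
  gen : IntermediateField.adjoin k {x, θ} = ⊤
  reduced : RedTorsion.IsReduced (K := k) x (D.uElem x θ) D.m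

theorem mem_of_isIntegral_adjoin {k F : Type*} [Field k] [Field F] [Algebra k F] (v : Place k F)
    {z f : F} (hz : z ∈ v.toValuationSubring) (hf : IsIntegral (Algebra.adjoin k {z}) f) :
    f ∈ v.toValuationSubring := by
  obtain ⟨p, hp, hpf⟩ := hf
  refine (mem_ordGe_zero v).mp (RedTorsion.mem_ordGe_zero_of_monic_rel v (d := p.natDegree)
    (a := fun i => ((p.coeff i : Algebra.adjoin k {z}) : F)) (fun i => ?_) ?_)
  · rw [mem_ordGe_zero]
    have h1 := (p.coeff i).2
    have h2 : ∀ y ∈ Algebra.adjoin k {z}, y ∈ v.toValuationSubring := fun y hy => by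
      rw [Algebra.adjoin_singleton_eq_range_aeval] at hy
      obtain ⟨g, rfl⟩ := hy
      exact aeval_mem_valuationSubring v hz g
    exact h2 _ h1
  · rw [eval₂_eq_sum_range, Finset.sum_range_succ, hp.coeff_natDegree, map_one, one_mul] at hpf
    rw [add_comm]
    exact hpf

theorem isIntegral_of_idem {R E : Type*} [CommRing R] [CommRing E] [Algebra R E] {e : E}
    (he : e * e = e) : IsIntegral R e := by
  rcases subsingleton_or_nontrivial R with hR | hR
  · exact ⟨1, monic_one, Subsingleton.elim (h := RingHom.codomain_trivial (algebraMap R E)) _ _⟩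
  refine ⟨X ^ 2 - X, monic_X_pow_sub (by simp), ?_⟩
  simp [pow_two, he]

variable {k : Type u} [Field k] {n : ℕ}

/-- The equation over the rational function field. -/
def CurveData.hR (D : CurveData k n) : (RatFunc k)[X] := D.h.map (algebraMap k[X] (RatFunc k))

theorem evalB_adjoinRoot (D : CurveData k n) (g : k[X][Y]) :
    evalB (k := k) (AdjoinRoot.of D.hR RatFunc.X) (AdjoinRoot.root D.hR) g
      = AdjoinRoot.mk D.hR (g.map (algebraMap k[X] (RatFunc k))) := by
  have h : (evalB (k := k) (AdjoinRoot.of D.hR RatFunc.X) (AdjoinRoot.root D.hR))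
      = (AdjoinRoot.mk D.hR).comp (mapRingHom (algebraMap k[X] (RatFunc k))) := by
    refine Polynomial.ringHom_ext (fun p => ?_) ?_
    · rw [evalB_C, RingHom.comp_apply, coe_mapRingHom, Polynomial.map_C, AdjoinRoot.mk_C]
      have h2 : aeval (R := k) (AdjoinRoot.of D.hR RatFunc.X) p
          = AdjoinRoot.of D.hR (aeval (R := k) RatFunc.X p) :=
        aeval_algebraMap_apply (AdjoinRoot D.hR) (RatFunc.X : RatFunc k) p
      rw [h2, ← RatFunc.algebraMap_X, aeval_algebraMap_apply, aeval_X_left_apply]
    · rw [evalB_Y, RingHom.comp_apply, coe_mapRingHom, Polynomial.map_X, AdjoinRoot.mk_X]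
  exact RingHom.congr_fun h g

theorem aeval_adjoinRoot (D : CurveData k n) (p : k[X]) :
    aeval (R := k) (AdjoinRoot.of D.hR RatFunc.X) p
      = AdjoinRoot.of D.hR (algebraMap k[X] (RatFunc k) p) := by
  rw [← evalB_C (AdjoinRoot.of D.hR RatFunc.X) (AdjoinRoot.root D.hR) p, evalB_adjoinRoot,
    Polynomial.map_C, AdjoinRoot.mk_C]

/-- Valid data define a function field. -/
theorem exists_realizes [IsAlgClosed k] {D : CurveData k n} (hD : D.IsValid) :
    ∃ (F : Type u) (_ : Field F) (_ : Algebra k F) (_ : IsFunctionField k F) (x θ : F),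
      Realizes D x θ ∧
      ∀ σ : k ≃+* k, D.h.map (mapRingHom (σ : k →+* k)) = D.h →
        ∃ g : SemilinearAut k F, SemilinearAut.baseAut g = σ ∧ g • x = x ∧ g • θ = θ := by
  set φ := algebraMap k[X] (RatFunc k)
  have hφ : Function.Injective φ := RatFunc.algebraMap_injective k
  have hn : 0 < n := lt_of_le_of_lt (Nat.zero_le _) D.i0.2
  have hmon : D.hR.Monic := hD.monic.map φ
  have hdeg : D.hR.natDegree = n := by rw [CurveData.hR, hD.monic.natDegree_map, hD.deg_h]
  obtain ⟨nr, root, lc, hlc, hfac, hcert, ⟨cinf⟩⟩ := hD.certs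
  have hΔ0 : D.Δ ≠ 0 := by
    rw [hfac]
    exact mul_ne_zero (C_ne_zero.mpr hlc.ne_zero)
      (Finset.prod_ne_zero_iff.mpr fun j _ => X_sub_C_ne_zero _)
  have hΔR : φ D.Δ ≠ 0 := (map_ne_zero_iff φ hφ).mpr hΔ0
  have hsep : D.hR.Separable := by
    obtain ⟨a, b, h⟩ := hD.bez
    have h1 := congrArg (Polynomial.map φ) h
    simp only [Polynomial.map_add, Polynomial.map_mul, Polynomial.map_C, ← derivative_map] at h1
    refine ⟨a.map φ * C (φ D.Δ)⁻¹, b.map φ * C (φ D.Δ)⁻¹, ?_⟩
    calc a.map φ * C (φ D.Δ)⁻¹ * D.hR + b.map φ * C (φ D.Δ)⁻¹ * derivative D.hR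
        = (D.hR * a.map φ + derivative D.hR * b.map φ) * C (φ D.Δ)⁻¹ := by ring
      _ = 1 := by rw [CurveData.hR, h1, ← C_mul, mul_inv_cancel₀ hΔR, C_1]
  let E := AdjoinRoot D.hR
  let o : RatFunc k →+* E := AdjoinRoot.of D.hR
  let xE : E := o RatFunc.X
  let θE : E := AdjoinRoot.root D.hR
  let x' : E := o (RatFunc.X)⁻¹
  have hxx : xE * x' = 1 := by
    rw [← map_mul, mul_inv_cancel₀ RatFunc.X_ne_zero, map_one]
  have haev : ∀ p : k[X], aeval xE p = o (φ p) := aeval_adjoinRoot D
  have hunit : ∀ p : k[X], p ≠ 0 → IsUnit (aeval xE p) := fun p hp => by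
    rw [haev]
    exact (IsUnit.mk0 _ ((map_ne_zero_iff φ hφ).mpr hp)).map o
  let u : Fin n → E := fun i => evalB xE θE (D.U i) * o (φ D.Δ)⁻¹
  have huΔ : ∀ i, u i * aeval xE D.Δ = evalB xE θE (D.U i) := fun i => by
    rw [haev, mul_assoc, ← map_mul, inv_mul_cancel₀ hΔR, map_one, mul_one]
  have hroot : evalB (k := k) xE θE D.h = 0 := by
    show evalB (k := k) (AdjoinRoot.of D.hR RatFunc.X) (AdjoinRoot.root D.hR) D.h = 0
    rw [evalB_adjoinRoot]
    exact AdjoinRoot.mk_self
  have h1 : u D.i0 = 1 := by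
    simp only [u, hD.U_i0, evalB_C, haev, ← map_mul, mul_inv_cancel₀ hΔR, map_one]
  have hT : ∀ a b, u a * u b = comb xE u (D.T a b) := by
    intro a b
    obtain ⟨Q, hQ⟩ := hD.mul a b
    have h2 := congrArg (evalB (k := k) xE θE) hQ
    simp only [map_add, map_mul, map_sum, evalB_C, hroot, zero_mul, add_zero] at h2
    refine ((hunit D.Δ hΔ0).pow 2).mul_right_cancel ?_
    calc u a * u b * aeval xE D.Δ ^ 2 = (u a * aeval xE D.Δ) * (u b * aeval xE D.Δ) := by ring
      _ = evalB xE θE (D.U a) * evalB xE θE (D.U b) := by rw [huΔ, huΔ]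
      _ = aeval xE D.Δ * ∑ c, aeval xE (D.T a b c) * evalB xE θE (D.U c) := h2
      _ = comb xE u (D.T a b) * aeval xE D.Δ ^ 2 := by
        rw [comb_apply, Finset.mul_sum, Finset.sum_mul]
        simp only [← huΔ]
        exact Finset.sum_congr rfl fun c _ => by ring
  -- the `u i` form a basis over `k(x)`
  have hspan : ⊤ ≤ Submodule.span (RatFunc k) (Set.range u) := by
    rw [← (AdjoinRoot.powerBasis' hmon).basis.span_eq]
    refine Submodule.span_le.mpr ?_
    rintro _ ⟨j, rfl⟩
    have hj : (j : ℕ) < n := by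
      have := j.2
      have hd : (AdjoinRoot.powerBasis' hmon).dim = n := by rw [AdjoinRoot.powerBasis'_dim, hdeg]
      omega
    obtain ⟨P, Q, hPQ⟩ := hD.span j hj
    have h2 := congrArg (evalB (k := k) xE θE) hPQ
    simp only [map_add, map_mul, map_sum, map_pow, evalB_C, evalB_Y, hroot, zero_mul, add_zero,
      ← huΔ] at h2
    have h3 : θE ^ (j : ℕ) = ∑ l, aeval xE (P l) * u l := by
      refine (hunit D.Δ hΔ0).mul_left_cancel ?_
      rw [h2, Finset.mul_sum]
      exact Finset.sum_congr rfl fun l _ => by ring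
    rw [PowerBasis.basis_eq_pow, AdjoinRoot.powerBasis'_gen, SetLike.mem_coe, h3]
    refine sum_mem fun l _ => ?_
    rw [haev]
    have h4 := Submodule.smul_mem (Submodule.span (RatFunc k) (Set.range u)) (φ (P l))
      (Submodule.subset_span ⟨l, rfl⟩)
    rwa [Algebra.smul_def] at h4
  have hfinE : Module.finrank (RatFunc k) E = n := by
    rw [(AdjoinRoot.powerBasis' hmon).finrank, AdjoinRoot.powerBasis'_dim, hdeg]
  have hli : LinearIndependent (RatFunc k) u := by
    have : Module.Finite (RatFunc k) E := (AdjoinRoot.powerBasis' hmon).finite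
    exact linearIndependent_of_top_le_span_of_card_eq_finrank hspan (by simp [hfinE])
  have hinj : Function.Injective (comb xE u : (Fin n → k[X]) →ₗ[k] E) := by
    rw [injective_iff_map_eq_zero]
    intro v hv
    funext i
    have h2 : ∑ i, φ (v i) • u i = 0 := by
      rw [← hv, comb_apply]
      exact Finset.sum_congr rfl fun i _ => by rw [haev, Algebra.smul_def]; rfl
    exact (map_eq_zero_iff φ hφ).mp (Fintype.linearIndependent_iff.mp hli _ h2 i)
  have hden : ∀ y : E, ∃ q : k[X], q ≠ 0 ∧
      aeval xE q * y ∈ LinearMap.range (comb (k := k) xE u) := by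
    intro y
    obtain ⟨r, rfl⟩ := (Submodule.mem_span_range_iff_exists_fun _).mp
      (hspan (Submodule.mem_top : y ∈ ⊤))
    refine ⟨∏ i, (r i).denom, Finset.prod_ne_zero_iff.mpr fun i _ => (r i).denom_ne_zero,
      fun i => (r i).num * ∏ j ∈ Finset.univ.erase i, (r j).denom, ?_⟩
    rw [comb_apply, Finset.mul_sum]
    refine Finset.sum_congr rfl fun i _ => ?_
    have hr : φ ((r i).num * ∏ j ∈ Finset.univ.erase i, (r j).denom)
        = φ (∏ j, (r j).denom) * r i := by
      rw [← Finset.mul_prod_erase Finset.univ (fun j => (r j).denom) (Finset.mem_univ i), map_mul,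
        map_mul]
      have hd : φ (r i).denom ≠ 0 := (map_ne_zero_iff φ hφ).mpr (r i).denom_ne_zero
      have hnd : φ (r i).num = φ (r i).denom * r i := by
        conv_rhs => enter [2]; rw [← RatFunc.num_div_denom (r i)]
        rw [mul_div_cancel₀ _ hd]
      rw [hnd]
      ring
    rw [haev, haev, hr, map_mul, Algebra.smul_def, show algebraMap (RatFunc k) E (r i) = o (r i)
      from rfl, mul_assoc]
  have hdegT : ∀ a b c, D.T a b c ≠ 0 → (D.T a b c).natDegree + D.m c ≤ D.m a + D.m b :=
    fun a b c h => (hD.degT a b c).resolve_left h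
  have hfib : ∀ c, Nonempty (FibreData D.T D.i0 c) := CurveData.exists_fibreData hD
  have hfib' : Nonempty (FibreData (tableInf D.m D.T) D.i0 (0 : k)) := ⟨cinf.fibreData⟩
  -- irreducibility
  have hirr : Irreducible D.hR := by
    have hnu : ¬ IsUnit D.hR := fun h => by
      have := natDegree_eq_zero_of_isUnit h
      omega
    refine ⟨hnu, fun p q hpq => ?_⟩
    by_contra! hu
    obtain ⟨a, b, hab⟩ := Separable.isCoprime (hpq ▸ hsep)
    set ε : E := AdjoinRoot.mk D.hR (a * p)
    have hε : ε * ε = ε := by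
      rw [← map_mul, AdjoinRoot.mk_eq_mk, hpq]
      exact ⟨-(a * b), by linear_combination (a * p) * hab⟩
    obtain ⟨P, hP, hPdeg⟩ := exists_comb_of_integral_both (u := u) (m := D.m) (i0 := D.i0) hxx
      hfib hfib' hT h1 hD.m_i0 hdegT hunit hinj hden (y := ε) (N := 0)
      (isIntegral_of_idem hε) (isIntegral_of_idem (by simp [hε]))
    have hPi : ∀ i, i ≠ D.i0 → P i = 0 := fun i hi => by
      by_contra h
      have := hPdeg i h
      have := hD.m_pos i hi
      omega
    obtain ⟨c, hc⟩ : ∃ c : k, ε = algebraMap k E c := by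
      refine ⟨(P D.i0).coeff 0, ?_⟩
      rw [hP, comb_apply, Finset.sum_eq_single D.i0 (fun i _ hi => by simp [hPi i hi]) (by simp),
        h1, mul_one]
      by_cases h : P D.i0 = 0
      · simp [h]
      · conv_lhs => rw [eq_C_of_natDegree_eq_zero (by have := hPdeg _ h; omega : (P D.i0).natDegree = 0)]
        rw [aeval_C]
    have : Nontrivial E := AdjoinRoot.nontrivial _ (by
      rw [degree_eq_natDegree hmon.ne_zero, hdeg]
      exact_mod_cast hn.ne')
    have hcc : c * c = c := (algebraMap k E).injective (by rw [map_mul, ← hc, hε])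
    rcases eq_or_ne c 0 with rfl | hc0
    · -- then `q` is a unit
      rw [map_zero, AdjoinRoot.mk_eq_zero, hpq] at hc
      refine hu.2 (isUnit_of_dvd_one ?_)
      rw [← hab]
      exact dvd_add (dvd_of_mul_left_dvd hc) (dvd_mul_left q b)
    · have hc1 : c = 1 := mul_left_cancel₀ hc0 (hcc.trans (mul_one c).symm)
      rw [hc1, map_one] at hc
      have hc' : AdjoinRoot.mk D.hR (b * q) = 0 := by
        rw [show b * q = 1 - a * p by rw [← hab]; ring, map_sub, map_one]
        exact sub_eq_zero.mpr hc.symm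
      rw [AdjoinRoot.mk_eq_zero, hpq] at hc'
      refine hu.1 (isUnit_of_dvd_one ?_)
      rw [← hab]
      exact dvd_add (dvd_mul_left p a) (dvd_of_mul_right_dvd hc')
  have : Fact (Irreducible D.hR) := ⟨hirr⟩
  have htr : Transcendental k xE := by
    rw [transcendental_iff]
    intro p hp
    by_contra h
    exact (hunit p h).ne_zero hp
  have hadj : ∀ p : k[X], aeval xE p ∈ k⟮xE⟯ := fun p =>
    algebra_adjoin_le_adjoin k _ (aeval_mem_adjoin_singleton k _)
  have ho : ∀ r : RatFunc k, o r ∈ k⟮xE⟯ := fun r => by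
    rw [← RatFunc.num_div_denom r, map_div₀, ← haev, ← haev]
    exact div_mem (hadj _) (hadj _)
  have hspan' : ⊤ ≤ Submodule.span k⟮xE⟯ (Set.range u) := by
    intro y _
    obtain ⟨r, rfl⟩ := (Submodule.mem_span_range_iff_exists_fun _).mp
      (hspan (Submodule.mem_top : y ∈ ⊤))
    refine sum_mem fun i _ => ?_
    rw [Algebra.smul_def]
    exact Submodule.smul_mem _ (⟨o (r i), ho _⟩ : k⟮xE⟯) (Submodule.subset_span ⟨i, rfl⟩)
  have hli' : LinearIndependent k⟮xE⟯ u := by
    rw [Fintype.linearIndependent_iff]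
    intro g hg i
    obtain ⟨Q, P, hQ, hQP⟩ := RedTorsion.exists_common_den htr g
    have h2 : comb xE u P = 0 := by
      have h3 : aeval xE Q * ∑ i, g i • u i = 0 := by rw [hg, mul_zero]
      rw [← h3, comb_apply, Finset.mul_sum]
      exact Finset.sum_congr rfl fun i _ => by
        rw [IntermediateField.smul_def, smul_eq_mul, ← hQP, mul_assoc]
    have h3 := hQP i
    rw [show P i = 0 from congrFun (hinj (h2.trans (map_zero _).symm)) i, map_zero, mul_eq_zero]
      at h3
    exact Subtype.ext (h3.resolve_left (hunit Q hQ).ne_zero)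
  let B := Module.Basis.mk hli' hspan'
  have hfin : FiniteDimensional k⟮xE⟯ E := Module.Finite.of_basis B
  have hFF : IsFunctionField k E := isFunctionField_of_finite htr
  refine ⟨E, inferInstance, inferInstance, hFF, xE, θE, ⟨htr, hroot, by rw [Module.finrank_eq_card_basis B, Fintype.card_fin], ?_, ?_⟩, ?_⟩
  · rw [eq_top_iff]
    intro y _
    set G := IntermediateField.adjoin k ({xE, θE} : Set E)
    have hle : k⟮xE⟯ ≤ G := IntermediateField.adjoin.mono k _ _ (by simp)
    have hθ : θE ∈ G := IntermediateField.subset_adjoin k _ (by simp)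
    obtain ⟨f, rfl⟩ := AdjoinRoot.mk_surjective y
    induction f using Polynomial.induction_on' with
    | add f g hf hg => rw [map_add]; exact add_mem (hf trivial) (hg trivial)
    | monomial j r =>
      rw [← C_mul_X_pow_eq_monomial, map_mul, map_pow, AdjoinRoot.mk_C, AdjoinRoot.mk_X]
      exact mul_mem (hle (ho r)) (pow_mem hθ j)
  · have hu : D.uElem xE θE = u := funext fun i => by
      rw [CurveData.uElem, div_eq_iff (hunit D.Δ hΔ0).ne_zero, huΔ]
    rw [hu]
    have hint : ∀ i, IsIntegral (Algebra.adjoin k {xE}) (u i) :=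
      isIntegral_of_table hT ⟨Pi.single D.i0 1, by rw [comb_single, h1]; simp⟩
    have hint' : ∀ i, IsIntegral (Algebra.adjoin k {x'}) (x' ^ D.m i * u i) :=
      isIntegral_of_table (u := fun i => x' ^ D.m i * u i) (table_inf hxx hT hdegT)
        ⟨Pi.single D.i0 1, by rw [comb_single]; simp [hD.m_i0, h1]⟩
    have hx0 : xE ≠ 0 := fun h => htr (by rw [h]; exact isAlgebraic_zero)
    have hx'eq : x' = xE⁻¹ := eq_inv_of_mul_eq_one_right hxx
    refine ⟨hli', fun i => RedTorsion.mem_polesSpace.mpr fun v => ?_, fun N y hy => ?_⟩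
    · rcases eq_or_ne (u i) 0 with h0 | h0
      · rw [h0]; exact zero_mem _
      refine mem_ordGe_of_le v ?_
      rw [poles_apply]
      by_cases hv : 0 ≤ v.ord xE
      · have := ord_nonneg v (mem_of_isIntegral_adjoin v ((mem_iff v).mpr (Or.inr hv)) (hint i))
        have hmax : max 0 (-v.ord xE) = 0 := by omega
        rw [hmax, mul_zero, neg_zero]
        exact this
      · have h2 := ord_nonneg v (mem_of_isIntegral_adjoin v
          ((mem_iff v).mpr (Or.inr (by rw [hx'eq, v.ord_inv]; omega))) (hint' i))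
        rw [hx'eq, v.ord_mul (pow_ne_zero _ (inv_ne_zero hx0)) h0, ord_pow, v.ord_inv] at h2
        have hmax : max 0 (-v.ord xE) = -v.ord xE := by omega
        rw [hmax]
        linarith
    · rw [RedTorsion.mem_polesSpace] at hy
      have hy1 : IsIntegral (Algebra.adjoin k {xE}) y := isIntegral_of_forall_mem _ fun v hv => by
        have hx : 0 ≤ v.ord xE := ord_nonneg v (hv _ (Algebra.self_mem_adjoin_singleton k xE))
        rw [← mem_ordGe_zero]
        refine ordGe_anti v ?_ (hy v)
        rw [poles_apply, max_eq_left (by omega), mul_zero, neg_zero]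
      have hy2 : IsIntegral (Algebra.adjoin k {x'}) (x' ^ N * y) :=
        isIntegral_of_forall_mem _ fun v hv => by
          have hx := ord_nonneg v (hv _ (Algebra.self_mem_adjoin_singleton k x'))
          rw [hx'eq, v.ord_inv] at hx
          rw [← mem_ordGe_zero]
          refine ordGe_anti v ?_
            (mul_mem_ordGe v (mem_ordGe_of_le v (le_refl (v.ord (x' ^ N)))) (hy v))
          rw [hx'eq, ord_pow, v.ord_inv, poles_apply, max_eq_right (by omega)]
          linarith
      obtain ⟨P, hP, hPdeg⟩ := exists_comb_of_integral_both (u := u) (m := D.m) (i0 := D.i0) hxx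
        hfib hfib' hT h1 hD.m_i0 hdegT hunit hinj hden hy1 hy2
      exact ⟨P, hP, hPdeg⟩
  · intro σ hσ
    let σP : k[X] ≃+* k[X] := Polynomial.mapEquiv σ
    let σR : RatFunc k ≃+* RatFunc k := IsFractionRing.ringEquivOfRingEquiv σP
    have hσR : ∀ p, σR (φ p) = φ (p.map (σ : k →+* k)) := fun p =>
      IsFractionRing.ringEquivOfRingEquiv_algebraMap σP p
    have hh : D.hR.map (σR : RatFunc k →+* RatFunc k) = D.hR := by
      conv_rhs => rw [CurveData.hR, ← hσ, Polynomial.map_map]
      rw [CurveData.hR, Polynomial.map_map]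
      congr 1
      exact RingHom.ext fun p => hσR p
    let gE : E ≃+* E := AdjoinRoot.mapRingEquiv σR D.hR D.hR (by rw [hh])
    have hof : ∀ r, gE (o r) = o (σR r) := fun r => by
      show gE (AdjoinRoot.of D.hR r) = AdjoinRoot.of D.hR (σR r)
      exact AdjoinRoot.map_of (σR : RatFunc k →+* RatFunc k) D.hR D.hR (by rw [hh]) r
    have halg : ∀ a : k, gE (algebraMap k E a) = algebraMap k E (σ a) := fun a => by
      rw [← aeval_C xE a, haev, hof, hσR, ← haev, Polynomial.map_C, aeval_C]
      rfl
    refine ⟨⟨(gE, σ), halg⟩, rfl, ?_, ?_⟩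
    swap
    · show gE θE = θE
      exact AdjoinRoot.map_root (σR : RatFunc k →+* RatFunc k) D.hR D.hR (by rw [hh])
    show gE xE = xE
    rw [← aeval_X (R := k) xE, haev, hof, hσR, Polynomial.map_X]

end Fermat.Agent.CurveTorsion
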