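import Fermat.Agent.CurveTorsion.Space
import Fermat.Agent.FF.Along
import Mathlib.FieldTheory.PurelyInseparable.PerfectClosure

/-!
# Existence of plane models
-/

set_option autoImplicit false

noncomputable section

open scoped Classical

open Polynomial AlgebraicCurve IntermediateField
open scoped Polynomial.Bivariate

namespace Fermat.Agent.CurveTorsion

open FF

set_option linter.unusedSectionVars false

variable {L F : Type*} [Field L] [Field F] [Algebra L F] [IsFunctionField L F]

/-- A function with a simple zero somewhere is a separating element. -/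
theorem isSeparable_of_ord_eq_one [IsAlgClosed L] {z : F} {v : Place L F} (hv : v.ord z = 1) :
    Algebra.IsSeparable L⟮z⟯ F := by
  have hz : Transcendental L z := transcendental_of_ord_pos v (by omega)
  have := finiteDimensional_adjoin (K := L) hz
  let Es := separableClosure L⟮z⟯ F
  have : IsScalarTower L Es F := IsScalarTower.of_algebraMap_eq fun _ => rfl
  let z' : Es := algebraMap L⟮z⟯ Es ⟨z, mem_adjoin_simple_self L z⟩
  have hz'F : algebraMap Es F z' = z := rfl
  have hz' : Transcendental L z' := fun h =>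
    hz (hz'F ▸ (isAlgebraic_algebraMap_iff (algebraMap Es F).injective).mpr h)
  have hfin : FiniteDimensional L⟮z'⟯ Es := by
    have heq : L⟮z'⟯.map (IsScalarTower.toAlgHom L Es F) = L⟮z⟯ := by
      rw [adjoin_map, Set.image_singleton]; rfl
    let e : L⟮z'⟯ ≃+* L⟮z⟯ :=
      ((L⟮z'⟯.equivMap (IsScalarTower.toAlgHom L Es F)).trans
        (IntermediateField.equivOfEq heq)).toRingEquiv
    refine Module.Finite.of_equiv_equiv e.symm (RingEquiv.refl Es) ?_
    ext a
    have h0 : ((e (e.symm a) : L⟮z⟯) : F) = ((((e.symm a : L⟮z'⟯) : Es)) : F) := rfl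
    rw [RingEquiv.apply_symm_apply] at h0
    exact h0.symm
  have : IsFunctionField L Es := isFunctionField_of_finite hz'
  rw [← separableClosure.eq_top_iff]
  change Es = ⊤
  obtain ⟨q, hq⟩ := ExpChar.exists L⟮z⟯
  have : ExpChar Es q := expChar_of_injective_ringHom (algebraMap L⟮z⟯ Es).injective q
  have hfib : (v.restrict Es).fiber F = {v} := by
    refine Finset.eq_singleton_iff_unique_mem.mpr ⟨Place.mem_fiber.mpr rfl, fun w hw => ?_⟩
    have hw' := Place.mem_fiber.mp hw
    refine Place.ext (SetLike.ext fun y => ?_)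
    obtain ⟨j, e, he⟩ := IsPurelyInseparable.pow_mem Es q y
    have hpow : ∀ u : Place L F, y ∈ u.toValuationSubring ↔
        e ∈ (u.restrict Es).toValuationSubring := by
      intro u
      rw [Place.mem_restrict_iff, he]
      refine ⟨fun h => pow_mem h _, fun h => ?_⟩
      rcases eq_or_ne y 0 with rfl | hy
      · exact zero_mem _
      have h1 := ord_nonneg u h
      rw [ord_pow] at h1
      have hqpos : (0 : ℤ) < ((q ^ j : ℕ) : ℤ) := by
        exact_mod_cast pow_pos (expChar_pos Es q) j
      exact (mem_iff_ord u hy).mpr (nonneg_of_mul_nonneg_right h1 hqpos)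
    rw [hpow w, hpow v, hw']
  have h1 := fundamental_identity (F' := F) (v.restrict Es)
  rw [hfib, Finset.sum_singleton, deg_eq_one, deg_eq_one] at h1
  have h2 := v.ord_restrict (F := Es) z'
  rw [hz'F, hv] at h2
  have he : (v.ramificationIndex Es : ℤ) = 1 :=
    Int.eq_one_of_mul_eq_one_right (Int.natCast_nonneg _) h2.symm
  rw [he] at h1
  have h3 : Module.finrank Es F = 1 := by omega
  exact IntermediateField.finrank_eq_one_iff_eq_top.mp h3

/-- A separating element is part of a plane model. -/
theorem exists_isPlane {x : F} (hx : Transcendental L x) [Algebra.IsSeparable L⟮x⟯ F] :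
    ∃ (θ : F) (h : L[X][Y]), IsPlane x θ h := by
  have := finiteDimensional_adjoin (K := L) hx
  obtain ⟨α, hα⟩ := Field.exists_primitive_element L⟮x⟯ F
  set m := minpoly L⟮x⟯ α with hm
  have hint : IsIntegral L⟮x⟯ α := Algebra.IsIntegral.isIntegral α
  set d := m.natDegree with hd
  have hdpos : 0 < d := minpoly.natDegree_pos hint
  have hdn : d = Module.finrank L⟮x⟯ F := by
    rw [hd, hm, ← adjoin.finrank hint, hα, finrank_top']
  obtain ⟨Q, P, hQ, hQP⟩ := RedTorsion.exists_common_den hx (fun i : Fin d => m.coeff i)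
  let r : L[X][Y] := ∑ i : Fin d, C (P i * Q ^ (d - 1 - i)) * X ^ (i : ℕ)
  have hr : r.degree < d := by
    refine degree_sum_fin_lt (fun i : Fin d => P i * Q ^ (d - 1 - i)) |>.trans_le' ?_
    exact le_rfl
  refine ⟨aeval x Q * α, Y ^ d + r, hx, ?_, monic_X_pow_add hr, ?_, ?_⟩
  · have h0 : aeval α m = 0 := minpoly.aeval _ _
    rw [aeval_eq_sum_range, Finset.sum_range_succ, (minpoly.monic hint).coeff_natDegree,
      one_smul, ← hd, Finset.sum_range] at h0
    have h1 : evalB x (aeval x Q * α) (Y ^ d + r)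
        = aeval x Q ^ d * (∑ i : Fin d, m.coeff i • α ^ (i : ℕ) + α ^ d) := by
      simp only [r, map_add, map_pow, map_sum, map_mul, evalB_C, evalB_Y, mul_add, mul_pow,
        Finset.mul_sum]
      rw [add_comm]
      congr 1
      refine Finset.sum_congr rfl fun i _ => ?_
      rw [IntermediateField.smul_def, smul_eq_mul, ← hQP]
      have hs : d = (d - 1 - (i : ℕ)) + 1 + (i : ℕ) := by omega
      conv_rhs => enter [1]; rw [hs, pow_add, pow_add, pow_one]
      ring
    rw [h1, h0, mul_zero]
  · rw [natDegree_add_eq_left_of_degree_lt (by rw [degree_X_pow]; exact hr), natDegree_X_pow, hdn]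
  · rw [eq_top_iff]
    intro y _
    set G := IntermediateField.adjoin L ({x, aeval x Q * α} : Set F)
    have hle : L⟮x⟯ ≤ G := IntermediateField.adjoin.mono L _ _ (by simp)
    have hQG : aeval x Q ∈ G := hle (RedTorsion.aevalGen x Q).2
    have hαG : α ∈ G := by
      have h2 : aeval x Q * α ∈ G := IntermediateField.subset_adjoin L _ (by simp)
      have h3 := mul_mem (inv_mem hQG) h2
      rwa [← mul_assoc, inv_mul_cancel₀ (aeval_ne_zero hx hQ), one_mul] at h3
    have h4 : L⟮x⟯⟮α⟯.restrictScalars L ≤ G := by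
      rw [adjoin_simple_adjoin_simple]
      exact adjoin_le_iff.mpr (by
        rintro z (rfl | rfl)
        · exact hle (mem_adjoin_simple_self L _)
        · exact hαG)
    exact h4 (by rw [mem_restrictScalars, hα]; trivial)

variable {x θ : F} {h : L[X][Y]}

theorem IsPlane.exists_den (H : IsPlane x θ h) (f : F) :
    ∃ (Δ : L[X]) (G : L[X][Y]), Δ ≠ 0 ∧ evalB x θ G = aeval x Δ * f := by
  have := finiteDimensional_adjoin (K := L) H.trans
  have hint : IsIntegral L⟮x⟯ θ := Algebra.IsIntegral.isIntegral θ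
  have htop : L⟮x⟯⟮θ⟯ = ⊤ := IntermediateField.restrictScalars_injective L (by
    rw [adjoin_simple_adjoin_simple, restrictScalars_top, H.gen])
  have hf : f ∈ L⟮x⟯⟮θ⟯ := htop ▸ trivial
  let pb := adjoin.powerBasis hint
  have hs := pb.basis.sum_repr ⟨f, hf⟩
  obtain ⟨Q, P, hQ, hQP⟩ :=
    RedTorsion.exists_common_den H.trans (fun i => pb.basis.repr ⟨f, hf⟩ i)
  refine ⟨Q, ∑ i, C (P i) * Y ^ (i : ℕ), hQ, ?_⟩
  have hs' := congrArg Subtype.val hs
  simp only [AddSubmonoidClass.coe_finsetSum] at hs'
  rw [← hs', Finset.mul_sum]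
  simp only [map_sum, map_mul, map_pow, evalB_C, evalB_Y]
  refine Finset.sum_congr rfl fun i _ => ?_
  rw [← hQP, mul_assoc]
  congr 1
  simp only [IntermediateField.coe_smul, PowerBasis.basis_eq_pow, IntermediateField.smul_def,
    smul_eq_mul, SubmonoidClass.coe_pow]
  rfl

theorem IsPlane.minpoly_eq (H : IsPlane x θ h) :
    minpoly L⟮x⟯ θ = h.map (aeval (RedTorsion.aevalGen x X)).toRingHom := by
  have := finiteDimensional_adjoin (K := L) H.trans
  set φ : L[X] →+* L⟮x⟯ := (aeval (RedTorsion.aevalGen x X)).toRingHom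
  have hφ : (algebraMap L⟮x⟯ F).comp φ = (aeval x).toRingHom := RingHom.ext fun p => by
    simp [φ, ← aeval_algebraMap_apply]
  have hroot : aeval θ (h.map φ) = 0 := by
    rw [aeval_def, eval₂_eq_eval_map, Polynomial.map_map, hφ, ← evalB_eq_eval, H.root]
  have hint : IsIntegral L⟮x⟯ θ := Algebra.IsIntegral.isIntegral θ
  have hmin : (minpoly L⟮x⟯ θ).natDegree = Module.finrank L⟮x⟯ F := by
    have htop : L⟮x⟯⟮θ⟯ = ⊤ := IntermediateField.restrictScalars_injective L (by
      rw [adjoin_simple_adjoin_simple, restrictScalars_top, H.gen])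
    rw [← adjoin.finrank hint, htop, finrank_top']
  exact (Polynomial.eq_of_monic_of_dvd_of_natDegree_le (minpoly.monic hint) (H.monic.map φ)
    (minpoly.dvd _ _ hroot) (by rw [H.monic.natDegree_map, H.deg, hmin])).symm

theorem IsPlane.derivative_ne_zero (H : IsPlane x θ h) [Algebra.IsSeparable L⟮x⟯ F] :
    derivative h ≠ 0 := fun h0 => by
  have := finiteDimensional_adjoin (K := L) H.trans
  have hne : (minpoly L⟮x⟯ θ).Separable := Algebra.IsSeparable.isSeparable L⟮x⟯ θ
  rw [H.minpoly_eq, Separable, derivative_map, h0, Polynomial.map_zero,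
    isCoprime_zero_right] at hne
  have h1 := natDegree_eq_zero_of_isUnit hne
  rw [H.monic.natDegree_map, H.deg] at h1
  exact (Module.finrank_pos (R := L⟮x⟯) (M := F)).ne' h1

theorem IsPlane.exists_bez (H : IsPlane x θ h) [Algebra.IsSeparable L⟮x⟯ F] :
    ∃ (a b : L[X][Y]) (Δ : L[X]), Δ ≠ 0 ∧ h * a + derivative h * b = C Δ := by
  have hd : evalB x θ (derivative h) ≠ 0 := by
    intro h0
    obtain ⟨q, hq⟩ := (H.evalB_eq_zero_iff _).mp h0
    have hdeg : (derivative h).natDegree < h.natDegree := natDegree_derivative_lt (by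
      rw [H.deg]
      have := finiteDimensional_adjoin (K := L) H.trans
      exact (Module.finrank_pos (R := L⟮x⟯) (M := F)).ne')
    rcases eq_or_ne q 0 with rfl | hq0
    · exact H.derivative_ne_zero (by rw [hq, mul_zero])
    · rw [hq, natDegree_mul H.monic.ne_zero hq0] at hdeg
      omega
  obtain ⟨Δ, b, hΔ, hb⟩ := H.exists_den (evalB x θ (derivative h))⁻¹
  obtain ⟨a, ha⟩ := (H.evalB_eq_zero_iff (derivative h * b - C Δ)).mp (by
    rw [map_sub, map_mul, evalB_C, hb, ← mul_assoc, mul_comm (evalB x θ (derivative h)),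
      mul_assoc, mul_inv_cancel₀ hd, mul_one, sub_self])
  exact ⟨-a, b, Δ, hΔ, by linear_combination ha⟩

end Fermat.Agent.CurveTorsion
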