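import Fermat.Agent.FF.RiemannRoch
import Mathlib.LinearAlgebra.Dual.Lemmas

/-!
# The Riemann-Roch theorem through Weil differentials (any characteristic)
-/

set_option autoImplicit false

noncomputable section

open scoped Classical

open AlgebraicCurve Polynomial

namespace Fermat.Agent.CurveTorsion

open FF

set_option linter.unusedSectionVars false
set_option synthInstance.maxHeartbeats 200000

variable {K F : Type*} [Field K] [Field F] [Algebra K F] [IsFunctionField K F] [IsAlgClosed K]

/-- Weil differentials bounded by `D`. -/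
def weilSpace (D : Divisor K F) : Submodule K (Module.Dual K (repartitions K F)) :=
  (repartitionsOf D ⊔ principalRepartitions K F).dualAnnihilator

theorem mem_weilSpace {D : Divisor K F} {ω : Module.Dual K (repartitions K F)} :
    ω ∈ weilSpace D ↔
      (∀ α ∈ repartitionsOf D, ω α = 0) ∧ ∀ α ∈ principalRepartitions K F, ω α = 0 := by
  rw [weilSpace, Submodule.mem_dualAnnihilator]
  refine ⟨fun h => ⟨fun α hα => h α (Submodule.mem_sup_left hα),
    fun α hα => h α (Submodule.mem_sup_right hα)⟩, fun h α hα => ?_⟩
  obtain ⟨a, ha, b, hb, rfl⟩ := Submodule.mem_sup.mp hα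
  rw [map_add, h.1 a ha, h.2 b hb, add_zero]

theorem weilSpace_anti {D E : Divisor K F} (h : D ≤ E) : weilSpace E ≤ weilSpace D :=
  Submodule.dualAnnihilator_anti (sup_le_sup_right (repartitionsOf_mono h) _)

theorem finiteDimensional_weilSpace (D : Divisor K F) : FiniteDimensional K (weilSpace D) :=
  (Submodule.dualQuotEquivDualAnnihilator _).finiteDimensional

theorem finrank_weilSpace (D : Divisor K F) :
    (Module.finrank K (weilSpace D) : ℤ) = h1 K D := by
  unfold weilSpace h1
  rw [← (Submodule.dualQuotEquivDualAnnihilator _).finrank_eq, Subspace.dual_finrank_eq]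

/-- The action of a function on functionals. -/
def fsmul (f : F) (ω : Module.Dual K (repartitions K F)) : Module.Dual K (repartitions K F) :=
  ω.comp (LinearMap.mulLeft K (algebraMap F (repartitions K F) f))

theorem fsmul_apply (f : F) (ω : Module.Dual K (repartitions K F)) (α : repartitions K F) :
    fsmul f ω α = ω (algebraMap F (repartitions K F) f * α) := rfl

theorem fsmul_one (ω : Module.Dual K (repartitions K F)) : fsmul 1 ω = ω := by
  refine LinearMap.ext fun α => ?_
  rw [fsmul_apply, map_one, one_mul]

theorem fsmul_add (f g : F) (ω : Module.Dual K (repartitions K F)) :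
    fsmul (f + g) ω = fsmul f ω + fsmul g ω := by
  refine LinearMap.ext fun α => ?_
  simp only [fsmul_apply, LinearMap.add_apply, map_add, add_mul]

theorem fsmul_smul (c : K) (f : F) (ω : Module.Dual K (repartitions K F)) :
    fsmul (c • f) ω = c • fsmul f ω := by
  refine LinearMap.ext fun α => ?_
  rw [LinearMap.smul_apply, fsmul_apply, fsmul_apply, ← map_smul]
  refine congrArg ω (Subtype.ext (funext fun v => ?_))
  show (c • f) * (α : Place K F → F) v = c • (f * (α : Place K F → F) v)
  rw [smul_mul_assoc]

theorem fsmul_mul (f g : F) (ω : Module.Dual K (repartitions K F)) :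
    fsmul (f * g) ω = fsmul g (fsmul f ω) := by
  refine LinearMap.ext fun α => ?_
  simp only [fsmul_apply, map_mul, mul_assoc]

theorem fsmul_eq_zero {f : F} (hf : f ≠ 0) {ω : Module.Dual K (repartitions K F)}
    (h : fsmul f ω = 0) : ω = 0 := by
  have := congrArg (fsmul f⁻¹) h
  rw [← fsmul_mul, mul_inv_cancel₀ hf, fsmul_one] at this
  rw [this]
  exact LinearMap.ext fun α => rfl

theorem fsmul_zero (ω : Module.Dual K (repartitions K F)) : fsmul 0 ω = 0 := by
  refine LinearMap.ext fun α => ?_
  rw [fsmul_apply, map_zero, zero_mul, map_zero, LinearMap.zero_apply]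

theorem fsmul_mem {D : Divisor K F} {f : F} (_hf : f ≠ 0) {ω : Module.Dual K (repartitions K F)}
    (h : ω ∈ weilSpace D) : fsmul f ω ∈ weilSpace (D + div K f) := by
  rw [mem_weilSpace] at h ⊢
  refine ⟨fun α hα => h.1 _ (mem_repartitionsOf'.mpr fun v => ?_), fun α hα => h.2 _ ?_⟩
  · show f * (α : Place K F → F) v ∈ _
    refine ordGe_anti v ?_ (mul_mem_ordGe v (mem_ordGe_of_le v (le_refl (v.ord f)))
      (mem_repartitionsOf'.mp hα v))
    simp
  · obtain ⟨g, hg⟩ := mem_principalRepartitions_iff.mp hα
    refine mem_principalRepartitions_iff.mpr ⟨f * g, funext fun v => ?_⟩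
    show f * (α : Place K F → F) v = f * g
    rw [hg]

theorem exists_ne_zero_weil :
    ∃ (D : Divisor K F) (ω : Module.Dual K (repartitions K F)), ω ≠ 0 ∧ ω ∈ weilSpace D := by
  obtain ⟨v⟩ := exists_place (K := K) (F := F)
  set D : Divisor K F := Finsupp.single v (-2)
  have h := riemann_roch_isAlgClosed D
  have hd : Divisor.degree D = -2 := by simp [D, deg_eq_one v]
  rw [ell_eq_zero_of_degree_neg (by omega : Divisor.degree D < 0), hd] at h
  have hpos : 0 < Module.finrank K (weilSpace D) := by
    have := finrank_weilSpace D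
    omega
  have := finiteDimensional_weilSpace D
  have hne : weilSpace D ≠ ⊥ := fun h0 => by
    rw [h0, finrank_bot] at hpos
    exact lt_irrefl 0 hpos
  obtain ⟨ω, hω, hω0⟩ := (Submodule.ne_bot_iff _).mp hne
  exact ⟨D, ω, hω0, hω⟩

theorem exists_fsmul_eq {D D' : Divisor K F} {ω ω' : Module.Dual K (repartitions K F)}
    (hω : ω ∈ weilSpace D) (hω0 : ω ≠ 0) (hω' : ω' ∈ weilSpace D') :
    ∃ f : F, fsmul f ω = ω' := by
  by_cases hω'0 : ω' = 0
  · exact ⟨0, by rw [hω'0, fsmul_zero]⟩
  by_contra hno
  obtain ⟨v⟩ := exists_place (K := K) (F := F)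
  have hdeg : ∀ z : ℤ, Divisor.degree (Finsupp.single v z) = z := fun z => by
    simp [deg_eq_one v]
  obtain ⟨c, hc⟩ := exists_h1_eq_zero (K := K) (F := F)
  set m : ℕ := (c - Divisor.degree D).toNat + (c - Divisor.degree D').toNat
    + 3 * genusFF K F + (-(Divisor.degree D)).toNat + (-(Divisor.degree D')).toNat + 3
  set B : Divisor K F := Finsupp.single v (-(m : ℤ))
  have hsub : ∀ (E : Divisor K F) (f : riemannRochSpace (E - B))
      (η : Module.Dual K (repartitions K F)), η ∈ weilSpace E → fsmul (f : F) η ∈ weilSpace B := by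
    intro E f η hη
    rcases eq_or_ne (f : F) 0 with h | h
    · rw [h, fsmul_zero]; exact Submodule.zero_mem _
    refine weilSpace_anti (Finsupp.le_def.mpr fun w => ?_) (fsmul_mem h hη)
    have := le_ord_of_mem_ordGe w h (mem_riemannRochSpace'.mp f.2 w)
    simp only [Finsupp.add_apply, div_apply, Finsupp.sub_apply] at this ⊢
    omega
  let φ : (riemannRochSpace (D - B) × riemannRochSpace (D' - B)) →ₗ[K] weilSpace B :=
    { toFun := fun p => ⟨fsmul (p.1 : F) ω + fsmul (p.2 : F) ω',
        add_mem (hsub D p.1 ω hω) (hsub D' p.2 ω' hω')⟩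
      map_add' := fun p q => Subtype.ext (by
        simp only [Prod.fst_add, Prod.snd_add, Submodule.coe_add, fsmul_add]; abel)
      map_smul' := fun a p => Subtype.ext (by
        simp only [Prod.smul_fst, Prod.smul_snd, Submodule.coe_smul, fsmul_smul, smul_add,
          RingHom.id_apply]) }
  have hinj : Function.Injective φ := by
    rw [injective_iff_map_eq_zero]
    rintro ⟨f, g⟩ hfg
    have h0 : fsmul (f : F) ω + fsmul (g : F) ω' = 0 := congrArg Subtype.val hfg
    by_cases hg : (g : F) = 0
    · rw [hg, fsmul_zero, add_zero] at h0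
      have hf : (f : F) = 0 := by
        by_contra hf
        exact hω0 (fsmul_eq_zero hf h0)
      exact Prod.ext (Subtype.ext hf) (Subtype.ext hg)
    · exfalso
      refine hno ⟨(-(f : F)) * (g : F)⁻¹, ?_⟩
      have hneg : fsmul (-(f : F)) ω = fsmul (g : F) ω' := by
        have h1 := fsmul_add (f : F) (-(f : F)) ω
        rw [add_neg_cancel, fsmul_zero] at h1
        rw [eq_neg_of_add_eq_zero_right h1.symm, eq_neg_of_add_eq_zero_right h0]
      rw [fsmul_mul, hneg, ← fsmul_mul, mul_inv_cancel₀ hg, fsmul_one]
  have := finiteDimensional_weilSpace B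
  have h1' := LinearMap.finrank_le_finrank_of_injective hinj
  rw [Module.finrank_prod] at h1'
  have hB := finrank_weilSpace B
  have hRR := riemann_roch_isAlgClosed B
  rw [ell_eq_zero_of_degree_neg (by rw [hdeg]; omega : Divisor.degree B < 0), hdeg] at hRR
  have hD := riemann_roch_isAlgClosed (D - B)
  rw [hc _ (by rw [map_sub, hdeg]; omega), map_sub, hdeg] at hD
  have hD' := riemann_roch_isAlgClosed (D' - B)
  rw [hc _ (by rw [map_sub, hdeg]; omega), map_sub, hdeg] at hD'
  simp only [ell] at hD hD'
  omega

/-- Riemann-Roch. -/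
theorem exists_canonical : ∃ W : Divisor K F,
    Divisor.degree W = 2 * (genusFF K F : ℤ) - 2 ∧
    ∀ D : Divisor K F,
      ell K D - ell K (W - D) = Divisor.degree D + 1 - genusFF K F := by
  obtain ⟨D₁, ω, hω0, hω⟩ := exists_ne_zero_weil (K := K) (F := F)
  obtain ⟨c, hc⟩ := exists_h1_eq_zero (K := K) (F := F)
  have hbdd : ∀ D, ω ∈ weilSpace D → Divisor.degree D < c := fun D hD => by
    by_contra! h
    have := finiteDimensional_weilSpace D
    have h0 : Module.finrank K (weilSpace D) = 0 := by
      have := finrank_weilSpace D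
      rw [hc D h] at this
      omega
    rw [Submodule.finrank_eq_zero] at h0
    exact hω0 ((Submodule.mem_bot K).mp (h0 ▸ hD))
  obtain ⟨z, ⟨W, hW, rfl⟩, hmax⟩ := Int.exists_greatest_of_bdd
    (P := fun z => ∃ D : Divisor K F, ω ∈ weilSpace D ∧ Divisor.degree D = z)
    ⟨c, fun z ⟨D, hD, hz⟩ => hz ▸ (hbdd D hD).le⟩ ⟨_, D₁, hω, rfl⟩
  have hle : ∀ D, ω ∈ weilSpace D → D ≤ W := by
    intro D hD
    set S : Divisor K F := Finsupp.zipWith max (max_self 0) D W
    have hS : ∀ v, S v = max (D v) (W v) := fun v => Finsupp.zipWith_apply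
    have hWS : W ≤ S := Finsupp.le_def.mpr fun v => by rw [hS]; exact le_max_right _ _
    have hωS : ω ∈ weilSpace S := by
      rw [mem_weilSpace] at hD hW ⊢
      refine ⟨fun α hα => ?_, hW.2⟩
      let β : repartitions K F := ⟨fun v => if W v ≤ D v then (α : Place K F → F) v else 0,
        mem_repartitions_of_finite_ord <| (mem_repartitions_iff.mp α.2).subset fun v hv => by
          simp only [Set.mem_ofPred_eq] at hv ⊢
          split_ifs at hv with h
          · exact hv
          · simp at hv⟩
      rw [← sub_add_cancel α β, map_add]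
      have hα' := mem_repartitionsOf'.mp hα
      rw [hW.1 _ (mem_repartitionsOf'.mpr fun v => ?_), hD.1 β (mem_repartitionsOf'.mpr fun v => ?_),
        add_zero]
      · show (if W v ≤ D v then (α : Place K F → F) v else 0) ∈ _
        split_ifs with h
        · have := hα' v
          rwa [hS, max_eq_left h] at this
        · exact zero_mem _
      · show (α : Place K F → F) v - (if W v ≤ D v then (α : Place K F → F) v else 0) ∈ _
        split_ifs with h
        · rw [sub_self]; exact zero_mem _
        · have := hα' v
          rwa [sub_zero, hS, max_eq_right (le_of_not_ge h)] at *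
    have hdeg : Divisor.degree S ≤ Divisor.degree W := hmax _ ⟨S, hωS, rfl⟩
    have h0 : S = W := by
      refine Finsupp.ext fun v => le_antisymm ?_ (Finsupp.le_def.mp hWS v)
      by_contra! hv
      have hstep : W + Finsupp.single v 1 ≤ S := Finsupp.le_def.mpr fun w => by
        rcases eq_or_ne w v with rfl | hw
        · simp only [Finsupp.add_apply, Finsupp.single_eq_same]; omega
        · simpa [Finsupp.single_eq_of_ne hw] using Finsupp.le_def.mp hWS w
      have := degree_mono hstep
      rw [map_add, Divisor.degree_single, deg_eq_one v] at this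
      omega
    refine Finsupp.le_def.mpr fun v => ?_
    rw [← h0, hS]; exact le_max_left _ _
  have key : ∀ D, h1 K D = ell K (W - D) := by
    intro D
    rw [← finrank_weilSpace D]
    let φ : riemannRochSpace (W - D) →ₗ[K] weilSpace D :=
      { toFun := fun f => ⟨fsmul (f : F) ω, by
          rcases eq_or_ne (f : F) 0 with h | h
          · rw [h, fsmul_zero]; exact Submodule.zero_mem _
          refine weilSpace_anti (Finsupp.le_def.mpr fun w => ?_) (fsmul_mem h hW)
          have := le_ord_of_mem_ordGe w h (mem_riemannRochSpace'.mp f.2 w)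
          simp only [Finsupp.add_apply, div_apply, Finsupp.sub_apply] at this ⊢
          omega⟩
        map_add' := fun f g => Subtype.ext (fsmul_add (f : F) (g : F) ω)
        map_smul' := fun a f => Subtype.ext (fsmul_smul a (f : F) ω) }
    have hbij : Function.Bijective φ := by
      refine ⟨(injective_iff_map_eq_zero φ).mpr fun f hf => ?_, fun η => ?_⟩
      · refine Subtype.ext ?_
        by_contra h
        exact hω0 (fsmul_eq_zero h (congrArg Subtype.val hf))
      · obtain ⟨f, hf⟩ := exists_fsmul_eq hω hω0 η.2
        rcases eq_or_ne f 0 with rfl | hf0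
        · refine ⟨0, Subtype.ext ?_⟩
          rw [← hf, map_zero, Submodule.coe_zero, fsmul_zero]
        · have h1' : ω ∈ weilSpace (D + div K f⁻¹) := by
            have h2 := fsmul_mem (inv_ne_zero hf0) η.2
            rwa [← hf, ← fsmul_mul, mul_inv_cancel₀ hf0, fsmul_one] at h2
          refine ⟨⟨f, mem_riemannRochSpace'.mpr fun w => mem_ordGe_of_le w ?_⟩, Subtype.ext hf⟩
          have := Finsupp.le_def.mp (hle _ h1') w
          simp only [Finsupp.add_apply, div_apply, w.ord_inv, Finsupp.sub_apply] at this ⊢
          omega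
    unfold ell
    rw [(LinearEquiv.ofBijective φ hbij).finrank_eq]
  refine ⟨W, ?_, fun D => ?_⟩
  · have h1' := riemann_roch_isAlgClosed W
    rw [key W, sub_self, ell_zero] at h1'
    have h2' := riemann_roch_isAlgClosed (0 : Divisor K F)
    rw [key 0, sub_zero, ell_zero, map_zero] at h2'
    omega
  · rw [← key D]
    exact riemann_roch_isAlgClosed D

end Fermat.Agent.CurveTorsion
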