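import Mathlib.RingTheory.PowerSeries.Derivative
import Mathlib.RingTheory.RootsOfUnity.PrimitiveRoots
import Mathlib.Analysis.Complex.Polynomial.Basic

/-!
# Logarithmic derivatives of power series
-/

set_option autoImplicit false

noncomputable section

open scoped Classical
open PowerSeries

namespace Fermat.Agent.CurveTorsion

/-- `c` is the logarithmic derivative `X f' / f`. -/
def LogD (f c : ℂ⟦X⟧) : Prop := X * d⁄dX ℂ f = f * c

theorem coeff_X_mul_derivative (f : ℂ⟦X⟧) (n : ℕ) :
    coeff n (X * d⁄dX ℂ f) = n * coeff n f := by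
  cases n with
  | zero => simp
  | succ n => rw [coeff_succ_X_mul, coeff_derivative]; push_cast; ring

theorem LogD.one : LogD 1 0 := by simp [LogD]

theorem LogD.mul {f g a b : ℂ⟦X⟧} (hf : LogD f a) (hg : LogD g b) : LogD (f * g) (a + b) := by
  rw [LogD] at *
  rw [Derivation.leibniz, smul_eq_mul, smul_eq_mul]
  linear_combination f * hg + g * hf

theorem LogD.prod {ι : Type*} (s : Finset ι) (f c : ι → ℂ⟦X⟧) (h : ∀ i ∈ s, LogD (f i) (c i)) :
    LogD (∏ i ∈ s, f i) (∑ i ∈ s, c i) := by
  induction s using Finset.induction_on with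
  | empty => simpa using LogD.one
  | @insert a s ha ih =>
    rw [Finset.prod_insert ha, Finset.sum_insert ha]
    exact (h a (Finset.mem_insert_self a s)).mul (ih fun i hi => h i (Finset.mem_insert_of_mem hi))

theorem LogD.coeff_eq {f c : ℂ⟦X⟧} (h : LogD f c) (n : ℕ) :
    (n : ℂ) * coeff n f = ∑ p ∈ Finset.antidiagonal n, coeff p.1 f * coeff p.2 c := by
  rw [← coeff_X_mul_derivative, h, coeff_mul]

theorem LogD.unique {f g c : ℂ⟦X⟧} (hc : constantCoeff c = 0) (hf : LogD f c) (hg : LogD g c)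
    (h0 : constantCoeff f = constantCoeff g) : f = g := by
  ext n
  induction n using Nat.strong_induction_on with
  | _ n ih =>
    rcases Nat.eq_zero_or_pos n with rfl | hn
    · simpa [coeff_zero_eq_constantCoeff] using h0
    have h1 := hf.coeff_eq n
    have h2 := hg.coeff_eq n
    have : ∑ p ∈ Finset.antidiagonal n, coeff p.1 f * coeff p.2 c
        = ∑ p ∈ Finset.antidiagonal n, coeff p.1 g * coeff p.2 c := by
      refine Finset.sum_congr rfl fun p hp => ?_
      rcases Nat.eq_zero_or_pos p.2 with h | h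
      · simp [h, coeff_zero_eq_constantCoeff, hc]
      · rw [ih p.1 (by rw [Finset.HasAntidiagonal.mem_antidiagonal] at hp; omega)]
    rw [← h1, ← h2] at this
    exact mul_left_cancel₀ (Nat.cast_ne_zero.mpr hn.ne') this

/-- A recursion `n aₙ = ∑ cⱼ aₙ₋ⱼ` gives the logarithmic derivative. -/
theorem LogD.of_recursion (a c : ℕ → ℂ)
    (h : ∀ n : ℕ, (n : ℂ) * a n = ∑ j ∈ Finset.range n, c (j + 1) * a (n - (j + 1))) :
    LogD (mk a) (mk fun j => if j = 0 then 0 else c j) := by
  unfold LogD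
  ext n
  rw [coeff_X_mul_derivative, mul_comm (mk a), coeff_mul, coeff_mk, h,
    Finset.Nat.sum_antidiagonal_eq_sum_range_succ_mk, Finset.sum_range_succ']
  simp

/-- The linear factor `1 - α X`. -/
def lin (α : ℂ) : ℂ⟦X⟧ := 1 - C α * X

/-- Its logarithmic derivative. -/
def linD (α : ℂ) : ℂ⟦X⟧ := mk fun j => if j = 0 then 0 else -α ^ j

theorem logD_lin (α : ℂ) : LogD (lin α) (linD α) := by
  rw [LogD]
  ext n
  rw [coeff_X_mul_derivative, lin, sub_mul, one_mul, map_sub, map_sub, mul_assoc, coeff_C_mul,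
    coeff_C_mul, coeff_one, coeff_X]
  cases n with
  | zero => simp [linD]
  | succ m =>
    rw [coeff_succ_X_mul]
    simp only [linD, coeff_mk]
    cases m with
    | zero => simp
    | succ k => simp [pow_succ]; ring

theorem constantCoeff_linD (α : ℂ) : constantCoeff (linD α) = 0 := by
  simp [linD, ← coeff_zero_eq_constantCoeff_apply]

theorem constantCoeff_lin (α : ℂ) : constantCoeff (lin α) = 1 := by simp [lin]

theorem LogD.rescale {f c : ℂ⟦X⟧} (h : LogD f c) (ζ : ℂ) :
    LogD (PowerSeries.rescale ζ f) (PowerSeries.rescale ζ c) := by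
  unfold LogD
  ext n
  rw [coeff_X_mul_derivative, ← map_mul, coeff_rescale, coeff_rescale, ← h,
    coeff_X_mul_derivative]
  ring

theorem sum_pow_root {l : ℕ} {ζ : ℂ} (hζ : IsPrimitiveRoot ζ l) (j : ℕ) :
    ∑ i ∈ Finset.range l, (ζ ^ i) ^ j = if l ∣ j then (l : ℂ) else 0 := by
  simp_rw [← pow_mul, fun i => mul_comm i j, pow_mul]
  split_ifs with h
  · simp [(hζ.pow_eq_one_iff_dvd j).mpr h]
  · have hne : ζ ^ j ≠ 1 := fun h' => h ((hζ.pow_eq_one_iff_dvd j).mp h')
    have h1 : (ζ ^ j) ^ l = 1 := by rw [← pow_mul, mul_comm, pow_mul, hζ.pow_eq_one, one_pow]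
    rw [geom_sum_eq hne, h1, sub_self, zero_div]

theorem lin_eq_coe (α : ℂ) :
    lin α = ((1 - Polynomial.C α * Polynomial.X : Polynomial ℂ) : ℂ⟦X⟧) := by
  simp [lin]

end Fermat.Agent.CurveTorsion
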