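import Fermat.Agent.CurveTorsion.Classes
import Fermat.Agent.CurveTorsion.Series
import Mathlib.Algebra.Polynomial.Reverse
import Mathlib.Algebra.Polynomial.Eval.Coeff

/-!
# The zeta function and the class numbers
-/

set_option autoImplicit false

noncomputable section

open scoped Classical

open AlgebraicCurve

namespace Fermat.Agent.CurveTorsion

open FF

set_option linter.unusedSectionVars false
set_option synthInstance.maxHeartbeats 200000

variable {K F : Type*} [Field K] [Field F] [Algebra K F] [IsAlgClosed K] [IsFunctionField K F]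
variable {φ : SemilinearAut K F} {q : ℕ} {P₀ : Place K F}

/-- The fixed classes, as a finite set. -/
def fixedFinset (h : IsFrob φ q) (hP₀ : φ • P₀ = P₀) : Finset (Pic0 K F) :=
  (finite_fixedSub h hP₀).toFinset

theorem mem_fixedFinset (h : IsFrob φ q) (hP₀ : φ • P₀ = P₀) {c : Pic0 K F} :
    c ∈ fixedFinset h hP₀ ↔ c ∈ fixedSub φ :=
  (finite_fixedSub h hP₀).mem_toFinset

theorem natCard_fixedSub (h : IsFrob φ q) (hP₀ : φ • P₀ = P₀) :
    Nat.card (fixedSub φ : AddSubgroup (Pic0 K F)) = (fixedFinset h hP₀).card := by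
  rw [Nat.card_congr (Equiv.subtypeEquivRight (q := (· ∈ fixedFinset h hP₀))
    fun c => (mem_fixedFinset h hP₀).symm), Nat.card_eq_fintype_card, Fintype.card_coe]

theorem natCard_fixedSub_pos (h : IsFrob φ q) (hP₀ : φ • P₀ = P₀) :
    0 < (fixedFinset h hP₀).card :=
  Finset.card_pos.mpr ⟨0, (mem_fixedFinset h hP₀).mpr (zero_mem _)⟩

theorem sum_eff_weight (h : IsFrob φ q) (hP₀ : φ • P₀ = P₀) (χ : Pic0 K F → ℂ) (n : ℕ) :
    ((q : ℂ) - 1) * ∑ D ∈ eff h n, χ (cls P₀ D) =
      ∑ c ∈ fixedFinset h hP₀, χ c * ((q : ℂ) ^ ellN P₀ c n - 1) := by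
  rw [← Finset.sum_fiberwise_of_maps_to (g := fun D => cls P₀ D) (t := fixedFinset h hP₀)
    fun D hD => (mem_fixedFinset h hP₀).mpr (cls_mem_fixedSub hP₀ ((mem_eff h).mp hD).2.1),
    Finset.mul_sum]
  refine Finset.sum_congr rfl fun c hc => ?_
  have h1 : ∑ D ∈ eff h n with cls P₀ D = c, χ (cls P₀ D)
      = ((eff h n).filter fun D => cls P₀ D = c).card * χ c := by
    rw [← nsmul_eq_mul, ← Finset.sum_const]
    exact Finset.sum_congr rfl fun D hD => by rw [(Finset.mem_filter.mp hD).2]
  rw [h1]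
  have h2 := congrArg (Nat.cast : ℕ → ℂ) (card_eff_cls h hP₀ ((mem_fixedFinset h hP₀).mp hc) n)
  push_cast [Nat.cast_sub (show 1 ≤ q from h.q_pos)] at h2
  linear_combination (χ c) * h2

/-- The number of effective invariant divisors of degree `n`. -/
def effNum (h : IsFrob φ q) : ℕ → ℤ := fun n => (eff h n).card

/-- The coefficient of the numerator of the zeta function. -/
def numCoeff (h : IsFrob φ q) (n : ℕ) : ℤ :=
  effNum h n - (if n < 1 then 0 else ((q : ℤ) + 1) * effNum h (n - 1))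
    + (if n < 2 then 0 else (q : ℤ) * effNum h (n - 2))

/-- The sum `∑ q ^ ℓ(c, n)` over fixed classes. -/
def classSum (h : IsFrob φ q) (hP₀ : φ • P₀ = P₀) (n : ℤ) : ℂ :=
  ∑ c ∈ fixedFinset h hP₀, (q : ℂ) ^ ellN P₀ c n

theorem classSum_neg (h : IsFrob φ q) (hP₀ : φ • P₀ = P₀) {n : ℤ} (hn : n < 0) :
    classSum h hP₀ n = (fixedFinset h hP₀).card := by
  simp [classSum, ellN_of_neg _ _ hn]

theorem effNum_eq (h : IsFrob φ q) (hP₀ : φ • P₀ = P₀) (n : ℕ) :
    ((q : ℂ) - 1) * (effNum h n : ℂ) = classSum h hP₀ n - (fixedFinset h hP₀).card := by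
  have := sum_eff_weight h hP₀ (fun _ => (1 : ℂ)) n
  simpa [effNum, classSum] using this

theorem numCoeff_eq (h : IsFrob φ q) (hP₀ : φ • P₀ = P₀) (n : ℕ) :
    ((q : ℂ) - 1) * (numCoeff h n : ℂ) = classSum h hP₀ n
      - ((q : ℂ) + 1) * classSum h hP₀ ((n : ℤ) - 1) + (q : ℂ) * classSum h hP₀ ((n : ℤ) - 2) := by
  have key : ∀ j : ℕ, ((q : ℂ) - 1) * ((if n < j then 0 else effNum h (n - j) : ℤ) : ℂ)
      = classSum h hP₀ ((n : ℤ) - j) - (fixedFinset h hP₀).card := by
    intro j
    by_cases hj : n < j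
    · rw [if_pos hj, classSum_neg h hP₀ (by omega)]
      simp
    · rw [if_neg hj, effNum_eq h hP₀, Nat.cast_sub (not_lt.mp hj)]
  have k0 := key 0
  have k1 := key 1
  have k2 := key 2
  simp only [Nat.not_lt_zero, if_false, Nat.cast_zero, sub_zero, Nat.cast_one, Nat.cast_ofNat,
    Nat.sub_zero] at k0 k1 k2
  have hite : ∀ (P : Prop) [Decidable P] (a b : ℤ), (if P then 0 else a * b)
      = a * (if P then 0 else b) := fun P _ a b => by split_ifs <;> simp
  simp only [numCoeff, hite]
  push_cast at k0 k1 k2 ⊢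
  linear_combination k0 - ((q : ℂ) + 1) * k1 + (q : ℂ) * k2

theorem two_le_cast (h : IsFrob φ q) : (q : ℂ) - 1 ≠ 0 := by
  rw [sub_ne_zero]
  exact_mod_cast (show q ≠ 1 by have := h.two_le; omega)

theorem classSum_dual (h : IsFrob φ q) (hP₀ : φ • P₀ = P₀) (n : ℤ) :
    classSum h hP₀ n
      = (q : ℂ) ^ (n + 1 - genusFF K F) * classSum h hP₀ (2 * genusFF K F - 2 - n) := by
  obtain ⟨w, hw, hdual⟩ := exists_canonical_class (φ := φ) hP₀
  rw [classSum, classSum, Finset.mul_sum]
  refine Finset.sum_nbij' (fun c => w - c) (fun c => w - c)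
    (fun c hc => (mem_fixedFinset h hP₀).mpr (sub_mem hw ((mem_fixedFinset h hP₀).mp hc)))
    (fun c hc => (mem_fixedFinset h hP₀).mpr (sub_mem hw ((mem_fixedFinset h hP₀).mp hc)))
    (fun c _ => sub_sub_cancel w c) (fun c _ => sub_sub_cancel w c) fun c _ => ?_
  have hq0 : (q : ℂ) ≠ 0 := Nat.cast_ne_zero.mpr h.q_pos.ne'
  rw [← zpow_natCast, ← zpow_natCast, ← zpow_add₀ hq0]
  congr 1
  have := hdual c n
  omega

theorem numCoeff_zero (h : IsFrob φ q) : numCoeff h 0 = 1 := by
  simp [numCoeff, effNum, eff_zero]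

/-- The functional equation. -/
theorem numCoeff_symm (h : IsFrob φ q) (hP₀ : φ • P₀ = P₀) (k m : ℕ)
    (hkm : k + m = 2 * genusFF K F) :
    (numCoeff h m : ℂ) = (q : ℂ) ^ ((genusFF K F : ℤ) - k) * numCoeff h k := by
  have hq0 : (q : ℂ) ≠ 0 := Nat.cast_ne_zero.mpr h.q_pos.ne'
  refine mul_left_cancel₀ (two_le_cast h) ?_
  rw [mul_left_comm, numCoeff_eq h hP₀, numCoeff_eq h hP₀, classSum_dual h hP₀ m,
    classSum_dual h hP₀ ((m : ℤ) - 1), classSum_dual h hP₀ ((m : ℤ) - 2)]
  have hm : (m : ℤ) = 2 * genusFF K F - k := by omega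
  rw [hm, show (2 * (genusFF K F : ℤ) - k + 1 - genusFF K F) = ((genusFF K F : ℤ) - k) + 1 by ring,
    show (2 * (genusFF K F : ℤ) - 2 - (2 * genusFF K F - k)) = (k : ℤ) - 2 by ring,
    show (2 * (genusFF K F : ℤ) - k - 1 + 1 - genusFF K F) = (genusFF K F : ℤ) - k by ring,
    show (2 * (genusFF K F : ℤ) - 2 - (2 * genusFF K F - k - 1)) = (k : ℤ) - 1 by ring,
    show (2 * (genusFF K F : ℤ) - k - 2 + 1 - genusFF K F) = ((genusFF K F : ℤ) - k) - 1 by ring,
    show (2 * (genusFF K F : ℤ) - 2 - (2 * genusFF K F - k - 2)) = (k : ℤ) by ring,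
    zpow_add_one₀ hq0, zpow_sub_one₀ hq0]
  field_simp
  ring

theorem numCoeff_eq_zero (h : IsFrob φ q) (hP₀ : φ • P₀ = P₀) {n : ℕ}
    (hn : 2 * genusFF K F < n) : numCoeff h n = 0 := by
  have hq0 : (q : ℂ) ≠ 0 := Nat.cast_ne_zero.mpr h.q_pos.ne'
  have hS : ∀ m : ℤ, 2 * (genusFF K F : ℤ) - 2 < m →
      classSum h hP₀ m = (q : ℂ) ^ (m + 1 - genusFF K F) * (fixedFinset h hP₀).card := by
    intro m hm
    rw [classSum_dual h hP₀ m, classSum_neg h hP₀ (n := 2 * genusFF K F - 2 - m) (by omega)]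
  have h1 : ((q : ℂ) - 1) * (numCoeff h n : ℂ) = 0 := by
    rw [numCoeff_eq h hP₀, hS _ (by omega), hS _ (by omega), hS _ (by omega),
      show (n : ℤ) + 1 - genusFF K F = ((n : ℤ) - genusFF K F) + 1 by ring,
      show (n : ℤ) - 1 + 1 - genusFF K F = (n : ℤ) - genusFF K F by ring,
      show (n : ℤ) - 2 + 1 - genusFF K F = ((n : ℤ) - genusFF K F) - 1 by ring,
      zpow_add_one₀ hq0, zpow_sub_one₀ hq0]
    field_simp
    ring
  exact_mod_cast (mul_eq_zero.mp h1).resolve_left (two_le_cast h)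

theorem numCoeff_top (h : IsFrob φ q) (hP₀ : φ • P₀ = P₀) :
    numCoeff h (2 * genusFF K F) = (q : ℤ) ^ genusFF K F := by
  have h1 := numCoeff_symm h hP₀ 0 (2 * genusFF K F) (zero_add _)
  rw [numCoeff_zero, Nat.cast_zero, sub_zero, zpow_natCast, Int.cast_one, mul_one] at h1
  exact_mod_cast h1

/-- The class number is the value at one. -/
theorem sum_numCoeff (h : IsFrob φ q) (hP₀ : φ • P₀ = P₀) :
    ∑ n ∈ Finset.range (2 * genusFF K F + 1), (numCoeff h n : ℂ) = (fixedFinset h hP₀).card := by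
  have key : ∀ N : ℕ, ((q : ℂ) - 1) * ∑ n ∈ Finset.range (N + 1), (numCoeff h n : ℂ)
      = classSum h hP₀ N - (q : ℂ) * classSum h hP₀ ((N : ℤ) - 1)
        + ((q : ℂ) - 1) * (fixedFinset h hP₀).card := by
    intro N
    induction N with
    | zero =>
      rw [Finset.sum_range_one, numCoeff_eq h hP₀, Nat.cast_zero,
        classSum_neg h hP₀ (n := (0 : ℤ) - 1) (by omega),
        classSum_neg h hP₀ (n := (0 : ℤ) - 2) (by omega)]
      ring
    | succ N ih =>
      rw [Finset.sum_range_succ, mul_add, ih, numCoeff_eq h hP₀]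
      push_cast
      rw [show (N : ℤ) + 1 - 1 = N by ring, show (N : ℤ) + 1 - 2 = (N : ℤ) - 1 by ring]
      ring
  have hq0 : (q : ℂ) ≠ 0 := Nat.cast_ne_zero.mpr h.q_pos.ne'
  refine mul_left_cancel₀ (two_le_cast h) ?_
  rw [key, classSum_dual h hP₀, classSum_neg h hP₀ (n := 2 * (genusFF K F : ℤ) - 2 - _) (by omega),
    classSum_dual h hP₀ (_ - 1), classSum_neg h hP₀ (n := 2 * (genusFF K F : ℤ) - 2 - _) (by omega)]
  push_cast
  rw [show 2 * (genusFF K F : ℤ) + 1 - genusFF K F = (genusFF K F : ℤ) + 1 by ring,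
    show 2 * (genusFF K F : ℤ) - 1 + 1 - genusFF K F = (genusFF K F : ℤ) by ring,
    zpow_add_one₀ hq0]
  ring

/-- The zeta series. -/
def zetaSeries (h : IsFrob φ q) : PowerSeries ℂ := PowerSeries.mk fun n => (effNum h n : ℂ)

/-- The numerator. -/
def numSeries (h : IsFrob φ q) : PowerSeries ℂ := PowerSeries.mk fun n => (numCoeff h n : ℂ)

/-- The number of places fixed by `φ ^ j`. -/
def ptCount (h : IsFrob φ q) (j : ℕ) : ℂ := if j = 0 then 0 else (fixedSet h j).card

theorem numSeries_eq (h : IsFrob φ q) : numSeries h = zetaSeries h * (lin 1 * lin q) := by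
  rw [show lin 1 * lin (q : ℂ) = 1 - PowerSeries.C ((q : ℂ) + 1) * PowerSeries.X
      + PowerSeries.C (q : ℂ) * (PowerSeries.X * PowerSeries.X) by
    simp only [lin, map_add, map_one]; ring, mul_add, mul_sub, mul_one, mul_left_comm,
    mul_left_comm (zetaSeries h) (PowerSeries.C (q : ℂ))]
  ext n
  rw [map_add, map_sub, PowerSeries.coeff_C_mul, PowerSeries.coeff_C_mul, ← mul_assoc (zetaSeries h)]
  rcases n with _ | _ | n
  · simp [numSeries, numCoeff, zetaSeries]
  · simp [numSeries, numCoeff, zetaSeries]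
  · simp only [numSeries, numCoeff, zetaSeries, PowerSeries.coeff_mk,
      PowerSeries.coeff_succ_mul_X]
    rw [if_neg (by omega), if_neg (by omega)]
    push_cast
    simp

theorem logD_zeta (h : IsFrob φ q) : LogD (zetaSeries h) (PowerSeries.mk (ptCount h)) := by
  have h1 := LogD.of_recursion (fun n => (effNum h n : ℂ)) (fun j => ((fixedSet h j).card : ℂ))
    fun n => by
      have := eff_recursion (R := ℂ) h (fun _ => 1) (fun _ _ _ _ => by ring) n
      simpa [effNum, ptSum] using this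
  exact h1

/-- Weil's form of the zeta function and the class numbers in all constant extensions. -/
theorem exists_roots (h : IsFrob φ q) (hP₀ : φ • P₀ = P₀) :
    ∃ (Q : Polynomial ℤ) (α : Fin (2 * genusFF K F) → ℂ),
      Q.Monic ∧ Q.natDegree = 2 * genusFF K F ∧ Q.coeff 0 = (q : ℤ) ^ genusFF K F ∧
      Q.map (Int.castRingHom ℂ) = ∏ i, (Polynomial.X - Polynomial.C (α i)) ∧
      (∀ r, 0 < r → (Nat.card (fixedSub (φ ^ r) : AddSubgroup (Pic0 K F)) : ℂ)
        = ∏ i, (1 - α i ^ r)) ∧
      numSeries h = ∏ i, lin (α i) := by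
  set g := genusFF K F
  let Pp : Polynomial ℤ := ∑ i ∈ Finset.range (2 * g + 1), Polynomial.monomial i (numCoeff h i)
  have hPp : ∀ i, Pp.coeff i = numCoeff h i := fun i => by
    simp only [Pp, Polynomial.finsetSum_coeff, Polynomial.coeff_monomial, Finset.sum_ite_eq',
      Finset.mem_range]
    split_ifs with hi
    · rfl
    · exact (numCoeff_eq_zero h hP₀ (show 2 * g < i by omega)).symm
  set Q : Polynomial ℤ := Pp.reflect (2 * g) with hQdef
  have hPpdeg : Pp.natDegree ≤ 2 * g := by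
    refine Polynomial.natDegree_le_iff_coeff_eq_zero.mpr fun i hi => ?_
    rw [hPp]; exact numCoeff_eq_zero h hP₀ hi
  have hQdeg : Q.natDegree ≤ 2 * g := by
    refine Polynomial.natDegree_le_iff_coeff_eq_zero.mpr fun i hi => ?_
    rw [hQdef, Polynomial.coeff_reflect, Polynomial.revAt_eq_self_of_lt hi, hPp]
    exact numCoeff_eq_zero h hP₀ hi
  have hQtop : Q.coeff (2 * g) = 1 := by
    rw [hQdef, Polynomial.coeff_reflect, Polynomial.revAt_le le_rfl, Nat.sub_self, hPp,
      numCoeff_zero]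
  have hQmonic : Q.Monic := Polynomial.monic_of_natDegree_le_of_coeff_eq_one _ hQdeg hQtop
  have hQnat : Q.natDegree = 2 * g :=
    Polynomial.natDegree_eq_of_le_of_coeff_ne_zero hQdeg (by rw [hQtop]; exact one_ne_zero)
  have hQ0 : Q.coeff 0 = (q : ℤ) ^ g := by
    rw [hQdef, Polynomial.coeff_reflect, Polynomial.revAt_le (Nat.zero_le _), Nat.sub_zero, hPp,
      numCoeff_top h hP₀]
  have hroots := Polynomial.Monic.map (Int.castRingHom ℂ) hQmonic
  have hsplit := IsAlgClosed.splits (Q.map (Int.castRingHom ℂ))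
  set l := (Q.map (Int.castRingHom ℂ)).roots.toList with hl
  have hlen : l.length = 2 * g := by
    rw [hl, Multiset.length_toList, ← Polynomial.Splits.natDegree_eq_card_roots hsplit,
      hQmonic.natDegree_map, hQnat]
  let α : Fin (2 * g) → ℂ := fun i => l.get (i.cast hlen.symm)
  have hprod : Q.map (Int.castRingHom ℂ) = ∏ i, (Polynomial.X - Polynomial.C (α i)) := by
    rw [hsplit.eq_prod_roots_of_monic hroots]
    rw [← Multiset.coe_toList (Q.map (Int.castRingHom ℂ)).roots, Multiset.map_coe, Multiset.prod_coe]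
    rw [← List.prod_ofFn]
    congr 1
    refine List.ext_getElem (by simp [← hl, hlen]) fun i h1 h2 => ?_
    simp [α, hl, List.get_eq_getElem]
  have hnum : numSeries h = ∏ i, lin (α i) := by
    have h1 : (Pp.map (Int.castRingHom ℂ))
        = ∏ i, (1 - Polynomial.C (α i) * Polynomial.X) := by
      have hrev : ∀ i, (Polynomial.X - Polynomial.C (α i)).reverse
          = 1 - Polynomial.C (α i) * Polynomial.X := fun i => by
        rw [Polynomial.reverse, Polynomial.natDegree_X_sub_C, Polynomial.reflect_sub,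
          Polynomial.reflect_one_X, Polynomial.reflect_C, pow_one]
      have h2 : (Q.map (Int.castRingHom ℂ)).reverse = Pp.map (Int.castRingHom ℂ) := by
        rw [Polynomial.reverse, hQmonic.natDegree_map, hQnat, hQdef, ← Polynomial.reflect_map,
          Polynomial.reflect_reflect]
      rw [← h2, hprod]
      have : ∀ s : Finset (Fin (2 * g)),
          (∏ i ∈ s, (Polynomial.X - Polynomial.C (α i))).reverse
            = ∏ i ∈ s, (1 - Polynomial.C (α i) * Polynomial.X) := by
        intro s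
        induction s using Finset.induction_on with
        | empty => simp [Polynomial.reverse]
        | @insert a s ha ih =>
          rw [Finset.prod_insert ha, Finset.prod_insert ha, Polynomial.reverse_mul_of_domain, ih,
            hrev]
      exact this _
    have h3 : numSeries h = ((Pp.map (Int.castRingHom ℂ) : Polynomial ℂ) : PowerSeries ℂ) := by
      ext n
      simp [numSeries, hPp]
    rw [h3, h1, ← Polynomial.coeToPowerSeries.ringHom_apply, map_prod]
    simp [lin_eq_coe]
  refine ⟨Q, α, hQmonic, hQnat, hQ0, hprod, ?_, hnum⟩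
  intro r hr
  have hP₀r : φ ^ r • P₀ = P₀ :=
    pow_smul_fixed (r := 1) (by rw [pow_one]; exact hP₀) (one_dvd r)
  have hr' := h.pow hr
  -- compare logarithmic derivatives
  have hc : ∀ j, 0 < j → ptCount h j = 1 + (q : ℂ) ^ j - ∑ i, α i ^ j := by
    intro j hj
    have e1 := (logD_zeta h).mul ((logD_lin 1).mul (logD_lin (q : ℂ)))
    rw [← numSeries_eq, hnum] at e1
    have e2 := LogD.prod Finset.univ (fun i => lin (α i)) (fun i => linD (α i))
      fun i _ => logD_lin _
    have e3 := e1.symm.trans e2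
    have hne : (∏ i, lin (α i)) ≠ 0 := fun h0 => by
      have := congrArg PowerSeries.constantCoeff h0
      simp [constantCoeff_lin] at this
    have e4 := congrArg (PowerSeries.coeff j) (mul_left_cancel₀ hne e3)
    simp only [map_add, map_sum, linD, PowerSeries.coeff_mk, if_neg hj.ne', one_pow,
      Finset.sum_neg_distrib] at e4
    linear_combination e4
  have hnum' : numSeries hr' = ∏ i, lin (α i ^ r) := by
    have e1 := (logD_zeta hr').mul ((logD_lin 1).mul (logD_lin ((q ^ r : ℕ) : ℂ)))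
    rw [← numSeries_eq] at e1
    have e2 := LogD.prod Finset.univ (fun i => lin (α i ^ r)) (fun i => linD (α i ^ r))
      fun i _ => logD_lin _
    refine LogD.unique (by simp [constantCoeff_linD]) ?_ e2 ?_
    · convert e1 using 1
      ext j
      rcases Nat.eq_zero_or_pos j with rfl | hj
      · simp [ptCount, linD]
      · have h4 : fixedSet hr' j = fixedSet h (r * j) := by
          ext P
          rw [mem_fixedSet _ hj, mem_fixedSet _ (Nat.mul_pos hr hj), ← pow_mul]
        have h5 := hc (r * j) (Nat.mul_pos hr hj)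
        simp only [ptCount, if_neg (Nat.mul_pos hr hj).ne', ← h4] at h5
        simp only [map_add, map_sum, linD, PowerSeries.coeff_mk, ptCount, if_neg hj.ne', one_pow,
          Finset.sum_neg_distrib, ← pow_mul, Nat.cast_pow]
        rw [h5]
        ring
    · rw [map_prod]
      simp [constantCoeff_lin, numSeries, numCoeff_zero]
  rw [natCard_fixedSub hr' hP₀r, ← sum_numCoeff hr' hP₀r]
  let R : Polynomial ℂ := ∏ i, (1 - Polynomial.C (α i ^ r) * Polynomial.X)
  have hR : (R : PowerSeries ℂ) = numSeries hr' := by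
    rw [hnum', ← Polynomial.coeToPowerSeries.ringHom_apply, map_prod]
    simp [lin_eq_coe]
  have hRdeg : R.natDegree < 2 * g + 1 := by
    refine Nat.lt_succ_of_le ((Polynomial.natDegree_prod_le _ _).trans ?_)
    refine (Finset.sum_le_sum fun i _ => (?_ : _ ≤ 1)).trans_eq (by simp)
    exact (Polynomial.natDegree_sub_le _ _).trans
      (max_le (by simp) ((Polynomial.natDegree_C_mul_le _ _).trans Polynomial.natDegree_X_le))
  have h6 : R.eval 1 = ∑ n ∈ Finset.range (2 * g + 1), R.coeff n := by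
    rw [Polynomial.eval_eq_sum_range' hRdeg]
    simp
  calc ∑ n ∈ Finset.range (2 * genusFF K F + 1), (numCoeff hr' n : ℂ)
      = ∑ n ∈ Finset.range (2 * g + 1), R.coeff n := Finset.sum_congr rfl fun n _ => by
        rw [← Polynomial.coeff_coe, hR, numSeries, PowerSeries.coeff_mk]
    _ = R.eval 1 := h6.symm
    _ = ∏ i, (1 - α i ^ r) := by
        simp [R, Polynomial.eval_prod]

end Fermat.Agent.CurveTorsion
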